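import Fermat.Agent.H70.ORD.Restrict

/-!
# P-ORD, block B1 (descent rows) : a rational place has exactly one place above it (helper70)

Generic in `F₀` and `ι : K₁ →+* ℚ̄`; `E₁ = laurentBaseChange K₁ F₀`,
`F = laurentBaseChange ℚ̄ F₀`.

* `exists_sum_klBc` : every element of `F` is a finite sum `∑ klBc (g c) * c` with `c ∈ ℚ̄`,
  `g c ∈ E₁` (`F = ℚ̄ ⊗ E₁`).
* `ord_sum_eq_of_rational` : the order at `P` of such a sum only depends on the restriction of `P`
  when the restriction is `K₁`-rational.
* **(R2)** `place_unique_of_rational` : two places of `F` with the same `K₁`-rational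
  restriction are equal.
* `resPlace_injOn_rational` : the same in terms of `resPlace`.
-/

set_option autoImplicit false
set_option linter.style.haveILetI false
set_option linter.unusedSectionVars false

noncomputable section

namespace Fermat.Agent.H70.ORD

open ModularCurve AlgebraicCurve Fermat.Agent.H93.KL

variable {K₁ : Type} [Field K₁] [Algebra ℚ K₁] (ι : K₁ →+* QBar)
  (F₀ : IntermediateField ℚ (LaurentSeries ℚ))

set_option synthInstance.maxHeartbeats 400000 in
/-- `F = ℚ̄ ⊗ E₁` : every element of `F` is a finite sum of products (function on `E₁`) times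
(constant). -/
theorem exists_sum_klBc (f : ↥(laurentBaseChange QBar F₀)) :
    ∃ (s : Finset QBar) (g : QBar → ↥(laurentBaseChange K₁ F₀)),
      f = ∑ c ∈ s, algebraMap QBar ↥(laurentBaseChange QBar F₀) c * klBc ι F₀ (g c) := by
  letI algF : Algebra ↥(laurentBaseChange K₁ F₀) ↥(laurentBaseChange QBar F₀) :=
    (klBc ι F₀).toAlgebra
  letI algK : Algebra K₁ ↥(laurentBaseChange QBar F₀) :=
    ((algebraMap QBar ↥(laurentBaseChange QBar F₀)).comp ι).toAlgebra
  haveI tower : IsScalarTower K₁ ↥(laurentBaseChange K₁ F₀) ↥(laurentBaseChange QBar F₀) :=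
    IsScalarTower.of_algebraMap_eq
      (fun a => (Fermat.Agent.H73.KLDesc.klBc_algebraMap ι F₀ a).symm)
  have halg : ∀ x ∈ Set.range (algebraMap QBar ↥(laurentBaseChange QBar F₀)),
      IsAlgebraic ↥(laurentBaseChange K₁ F₀) x := by
    rintro _ ⟨c, rfl⟩
    exact ((res_const_isIntegral ι F₀ c).tower_top).isAlgebraic
  have h1 := IntermediateField.adjoin_toSubalgebra_of_isAlgebraic halg
  rw [res_adjoin_eq_top ι F₀] at h1
  have h2 : f ∈ Algebra.adjoin ↥(laurentBaseChange K₁ F₀)
      (Set.range (algebraMap QBar ↥(laurentBaseChange QBar F₀))) := by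
    rw [← h1]
    exact IntermediateField.mem_top
  have h3 : f ∈ Subalgebra.toSubmodule (Algebra.adjoin ↥(laurentBaseChange K₁ F₀)
      (Set.range (algebraMap QBar ↥(laurentBaseChange QBar F₀)))) := h2
  rw [Algebra.adjoin_eq_span] at h3
  have h4 : (Submonoid.closure
      (Set.range (algebraMap QBar ↥(laurentBaseChange QBar F₀))) :
        Set ↥(laurentBaseChange QBar F₀)) =
      Set.range (algebraMap QBar ↥(laurentBaseChange QBar F₀)) := by
    have : Set.range (algebraMap QBar ↥(laurentBaseChange QBar F₀)) =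
        ((MonoidHom.mrange ((algebraMap QBar ↥(laurentBaseChange QBar F₀)) :
          QBar →* ↥(laurentBaseChange QBar F₀)) :
          Submonoid ↥(laurentBaseChange QBar F₀)) : Set ↥(laurentBaseChange QBar F₀)) := by
      ext x
      simp
    rw [this, Submonoid.closure_eq]
  rw [h4, Finsupp.mem_span_range_iff_exists_finsupp] at h3
  obtain ⟨c, hc⟩ := h3
  refine ⟨c.support, fun a => c a, ?_⟩
  rw [← hc, Finsupp.sum]
  refine Finset.sum_congr rfl fun a _ => ?_
  rw [Algebra.smul_def, mul_comm]
  rfl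

section Unique

variable {ι F₀}
variable (P₁ : Place K₁ ↥(laurentBaseChange K₁ F₀))
  (hrat : ∀ z ∈ P₁.toValuationSubring,
    ∃ c : K₁, z - algebraMap K₁ ↥(laurentBaseChange K₁ F₀) c ∈ P₁.toValuationSubring.nonunits)
  (P : Place QBar ↥(laurentBaseChange QBar F₀))
  (hP : ∀ g : ↥(laurentBaseChange K₁ F₀), P.ord (klBc ι F₀ g) = P₁.ord g)

/-- A finite sum of elements of positive order is zero or has positive order. -/
theorem ord_sum_pos {I : Type} (P : Place QBar ↥(laurentBaseChange QBar F₀)) (s : Finset I)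
    (x : I → ↥(laurentBaseChange QBar F₀)) (hx : ∀ i ∈ s, x i = 0 ∨ 1 ≤ P.ord (x i)) :
    (∑ i ∈ s, x i) = 0 ∨ 1 ≤ P.ord (∑ i ∈ s, x i) := by
  classical
  induction s using Finset.induction_on with
  | empty => left; simp
  | insert a s ha ih =>
    rw [Finset.sum_insert ha]
    by_cases h0 : x a + ∑ i ∈ s, x i = 0
    · exact Or.inl h0
    · right
      exact Fermat.Agent.H23.ord_add_ge P h0 1 (hx a (Finset.mem_insert_self a s))
        (ih fun i hi => hx i (Finset.mem_insert_of_mem hi))

include hP in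
/-- The value of a function of `E₁` at the rational place `P₁`, seen at `P`. -/
theorem value_klBc (h : ↥(laurentBaseChange K₁ F₀)) (a : K₁)
    (ha : h - algebraMap K₁ ↥(laurentBaseChange K₁ F₀) a ∈ P₁.toValuationSubring.nonunits) :
    klBc ι F₀ (h - algebraMap K₁ ↥(laurentBaseChange K₁ F₀) a) = 0 ∨
      1 ≤ P.ord (klBc ι F₀ (h - algebraMap K₁ ↥(laurentBaseChange K₁ F₀) a)) := by
  rw [ValuationSubring.mem_nonunits_iff_exists_mem_maximalIdeal] at ha
  obtain ⟨hm, ha⟩ := ha
  rw [Fermat.Agent.H23.mem_maximalIdeal_iff_ord] at ha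
  rcases ha with ha | ha
  · left
    have : h - algebraMap K₁ ↥(laurentBaseChange K₁ F₀) a = 0 := ha
    rw [this, map_zero]
  · right
    rw [hP]
    exact ha

/-- A constant times an element of positive order. -/
theorem ord_const_mul_pos (P : Place QBar ↥(laurentBaseChange QBar F₀)) (c : QBar)
    (x : ↥(laurentBaseChange QBar F₀)) (hx : x = 0 ∨ 1 ≤ P.ord x) :
    algebraMap QBar ↥(laurentBaseChange QBar F₀) c * x = 0 ∨
      1 ≤ P.ord (algebraMap QBar ↥(laurentBaseChange QBar F₀) c * x) := by
  rcases hx with hx | hx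
  · left; rw [hx, mul_zero]
  · by_cases hc : c = 0
    · left; rw [hc, map_zero, zero_mul]
    · right
      have hx0 : x ≠ 0 := by
        rintro rfl
        rw [P.ord_zero] at hx
        omega
      rw [P.ord_mul ((map_ne_zero _).mpr hc) hx0, Fermat.Agent.H23.ord_algebraMap]
      omega

/-- A nonzero constant plus an element of positive order has order zero. -/
theorem ord_const_add_pos (P : Place QBar ↥(laurentBaseChange QBar F₀)) (C : QBar)
    (hC : C ≠ 0) (w : ↥(laurentBaseChange QBar F₀)) (hw : w = 0 ∨ 1 ≤ P.ord w) :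
    P.ord (algebraMap QBar ↥(laurentBaseChange QBar F₀) C + w) = 0 := by
  rcases hw with hw | hw
  · rw [hw, add_zero, Fermat.Agent.H23.ord_algebraMap]
  · have hw0 : w ≠ 0 := by
      rintro rfl
      rw [P.ord_zero] at hw
      omega
    rw [Fermat.Agent.H23.ord_add_eq_of_lt P ((map_ne_zero _).mpr hC) hw0
      (by rw [Fermat.Agent.H23.ord_algebraMap]; omega), Fermat.Agent.H23.ord_algebraMap]

include hrat hP in
/-- **The order of a sum `∑ cᵢ klBc (gᵢ)` at a place over a rational place `P₁` only depends on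
`P₁`.** -/
theorem ord_sum_eq_of_rational (P' : Place QBar ↥(laurentBaseChange QBar F₀))
    (hP' : ∀ g : ↥(laurentBaseChange K₁ F₀), P'.ord (klBc ι F₀ g) = P₁.ord g) {I : Type} :
    ∀ (n : ℕ) (s : Finset I) (c : I → QBar) (g : I → ↥(laurentBaseChange K₁ F₀)),
      s.card ≤ n →
      (∑ i ∈ s, algebraMap QBar ↥(laurentBaseChange QBar F₀) (c i) * klBc ι F₀ (g i)) ≠ 0 →
      P.ord (∑ i ∈ s, algebraMap QBar ↥(laurentBaseChange QBar F₀) (c i) * klBc ι F₀ (g i)) =
        P'.ord (∑ i ∈ s,
          algebraMap QBar ↥(laurentBaseChange QBar F₀) (c i) * klBc ι F₀ (g i)) := by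
  classical
  intro n
  induction n with
  | zero =>
    intro s c g hs hne
    exfalso
    apply hne
    have : s = ∅ := Finset.card_eq_zero.mp (Nat.le_zero.mp hs)
    rw [this, Finset.sum_empty]
  | succ n ih =>
    intro s c g hs hne
    -- remove the vanishing functions
    have hsum : (∑ i ∈ s,
        algebraMap QBar ↥(laurentBaseChange QBar F₀) (c i) * klBc ι F₀ (g i)) =
        ∑ i ∈ s.filter (fun i => g i ≠ 0),
          algebraMap QBar ↥(laurentBaseChange QBar F₀) (c i) * klBc ι F₀ (g i) := by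
      rw [Finset.sum_filter]
      refine Finset.sum_congr rfl fun i _ => ?_
      by_cases h : g i ≠ 0
      · rw [if_pos h]
      · rw [if_neg h]
        rw [not_not] at h
        rw [h, map_zero, mul_zero]
    rw [hsum] at hne ⊢
    generalize hs' : s.filter (fun i => g i ≠ 0) = s' at hne ⊢
    have hs'g : ∀ i ∈ s', g i ≠ 0 := by
      intro i hi
      rw [← hs'] at hi
      exact (Finset.mem_filter.mp hi).2
    have hs'card : s'.card ≤ n + 1 := by
      rw [← hs']
      exact (Finset.card_filter_le _ _).trans hs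
    have hs'ne : s'.Nonempty := by
      by_contra h
      rw [Finset.not_nonempty_iff_eq_empty] at h
      apply hne
      rw [h, Finset.sum_empty]
    obtain ⟨i₀, hi₀, hmin⟩ := Finset.exists_min_image s' (fun i => P₁.ord (g i)) hs'ne
    have hg₀ : g i₀ ≠ 0 := hs'g i₀ hi₀
    have hkg₀ : klBc ι F₀ (g i₀) ≠ 0 := (map_ne_zero _).mpr hg₀
    have hmem : ∀ i ∈ s', g i / g i₀ ∈ P₁.toValuationSubring := by
      intro i hi
      apply Fermat.Agent.H23.mem_of_ord_nonneg P₁
      rw [div_eq_mul_inv, P₁.ord_mul (hs'g i hi) (inv_ne_zero hg₀), P₁.ord_inv]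
      have := hmin i hi
      omega
    -- the values at `P₁`
    have hval : ∀ i, ∃ a : K₁, i ∈ s' →
        g i / g i₀ - algebraMap K₁ ↥(laurentBaseChange K₁ F₀) a ∈
          P₁.toValuationSubring.nonunits := by
      intro i
      by_cases hi : i ∈ s'
      · obtain ⟨a, ha⟩ := hrat _ (hmem i hi)
        exact ⟨a, fun _ => ha⟩
      · exact ⟨0, fun h => absurd h hi⟩
    choose a ha using hval
    -- normalisation by `g i₀`
    have hu : (∑ i ∈ s',
        algebraMap QBar ↥(laurentBaseChange QBar F₀) (c i) * klBc ι F₀ (g i)) =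
        klBc ι F₀ (g i₀) * ∑ i ∈ s',
          algebraMap QBar ↥(laurentBaseChange QBar F₀) (c i) * klBc ι F₀ (g i / g i₀) := by
      rw [Finset.mul_sum]
      refine Finset.sum_congr rfl fun i _ => ?_
      rw [map_div₀]
      field_simp
    -- splitting off the constant term
    have hsplit : (∑ i ∈ s',
        algebraMap QBar ↥(laurentBaseChange QBar F₀) (c i) * klBc ι F₀ (g i / g i₀)) =
        algebraMap QBar ↥(laurentBaseChange QBar F₀)
          (c i₀ + ∑ i ∈ s'.erase i₀, c i * ι (a i)) +
        ∑ i ∈ s'.erase i₀, algebraMap QBar ↥(laurentBaseChange QBar F₀) (c i) *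
          klBc ι F₀ (g i / g i₀ - algebraMap K₁ ↥(laurentBaseChange K₁ F₀) (a i)) := by
      rw [← Finset.add_sum_erase s' _ hi₀, div_self hg₀, map_one, mul_one, map_add, map_sum,
        add_assoc, ← Finset.sum_add_distrib]
      congr 1
      refine Finset.sum_congr rfl fun i _ => ?_
      rw [map_sub, Fermat.Agent.H73.KLDesc.klBc_algebraMap, map_mul]
      ring
    set C : QBar := c i₀ + ∑ i ∈ s'.erase i₀, c i * ι (a i) with hC
    set w : ↥(laurentBaseChange QBar F₀) :=
      ∑ i ∈ s'.erase i₀, algebraMap QBar ↥(laurentBaseChange QBar F₀) (c i) *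
        klBc ι F₀ (g i / g i₀ - algebraMap K₁ ↥(laurentBaseChange K₁ F₀) (a i)) with hw
    have hu'ne : algebraMap QBar ↥(laurentBaseChange QBar F₀) C + w ≠ 0 := by
      intro h0
      apply hne
      rw [hu, hsplit, h0, mul_zero]
    have hwP : w = 0 ∨ 1 ≤ P.ord w :=
      ord_sum_pos P _ _ fun i hi => ord_const_mul_pos P _ _
        (value_klBc P₁ P hP _ _ (ha i (Finset.mem_of_mem_erase hi)))
    have hwP' : w = 0 ∨ 1 ≤ P'.ord w :=
      ord_sum_pos P' _ _ fun i hi => ord_const_mul_pos P' _ _
        (value_klBc P₁ P' hP' _ _ (ha i (Finset.mem_of_mem_erase hi)))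
    have key : P.ord (algebraMap QBar ↥(laurentBaseChange QBar F₀) C + w) =
        P'.ord (algebraMap QBar ↥(laurentBaseChange QBar F₀) C + w) := by
      by_cases hC0 : C = 0
      · rw [hC0, map_zero, zero_add] at hu'ne ⊢
        refine ih (s'.erase i₀) c
          (fun i => g i / g i₀ - algebraMap K₁ ↥(laurentBaseChange K₁ F₀) (a i)) ?_ hu'ne
        rw [Finset.card_erase_of_mem hi₀]
        omega
      · rw [ord_const_add_pos P C hC0 w hwP, ord_const_add_pos P' C hC0 w hwP']
    rw [hu, hsplit, P.ord_mul hkg₀ hu'ne, P'.ord_mul hkg₀ hu'ne, key, hP, hP']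

include hrat hP in
/-- **(R2)** Two places of `F` with the same `K₁`-rational restriction `P₁` are equal. -/
theorem place_unique_of_rational (P' : Place QBar ↥(laurentBaseChange QBar F₀))
    (hP' : ∀ g : ↥(laurentBaseChange K₁ F₀), P'.ord (klBc ι F₀ g) = P₁.ord g) : P = P' := by
  apply Fermat.Agent.H23.place_ext_of_ord
  intro f hf
  rcases eq_or_ne f 0 with rfl | hf0
  · rw [P'.ord_zero]
  obtain ⟨s, g, hs⟩ := exists_sum_klBc ι F₀ f
  rw [hs] at hf hf0 ⊢
  rw [← ord_sum_eq_of_rational P₁ hrat P hP P' hP' s.card s (fun c => c) g le_rfl hf0]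
  exact hf

end Unique

/-- **(R2), in terms of restrictions** : if the restriction of `P` to `E₁` is `K₁`-rational,
every place `P'` of `F` with the same restriction is equal to `P`. -/
theorem eq_of_resPlace_eq_of_rational (P P' : Place QBar ↥(laurentBaseChange QBar F₀))
    (hrat : ∀ z ∈ (resPlace ι F₀ P).toValuationSubring,
      ∃ c : K₁, z - algebraMap K₁ ↥(laurentBaseChange K₁ F₀) c ∈
        (resPlace ι F₀ P).toValuationSubring.nonunits)
    (h : resPlace ι F₀ P' = resPlace ι F₀ P) : P = P' :=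
  place_unique_of_rational (resPlace ι F₀ P) hrat P (ord_klBc_eq ι F₀ P) P'
    (fun g => by rw [← h]; exact ord_klBc_eq ι F₀ P' g)

/-- The same with the equality of the valuation subrings `O_{P'} ∩ E₁ = O_P ∩ E₁`. -/
theorem eq_of_comap_eq_of_rational (P P' : Place QBar ↥(laurentBaseChange QBar F₀))
    (hrat : ∀ z ∈ (resPlace ι F₀ P).toValuationSubring,
      ∃ c : K₁, z - algebraMap K₁ ↥(laurentBaseChange K₁ F₀) c ∈
        (resPlace ι F₀ P).toValuationSubring.nonunits)
    (h : P'.toValuationSubring.comap (klBc ι F₀) = P.toValuationSubring.comap (klBc ι F₀)) :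
    P = P' :=
  eq_of_resPlace_eq_of_rational ι F₀ P P' hrat (Place.ext h)

end Fermat.Agent.H70.ORD
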