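import Fermat.Agent.H70.ORD.IcbcAbs
import Fermat.Agent.H70.ORD.RatUnique
import Fermat.Agent.H98.KL.LaurentConst
import Fermat.Agent.H4.SS.Hartogs
import Fermat.Agent.H9.SS.ChartChangeAbs

/-!
# P-ORD, block B1-ANCHOR, step [BC](a) : GENERIC BASE CHANGE of the charts (helper70)

`ι₀ : K₀ → ℚ̄` any field, `E₀ = laurentBaseChange K₀ F₀`, `F = laurentBaseChange ℚ̄ F₀`,
`bc = klBc ι₀ F₀`; `A₀` ANY discrete valuation ring with fraction field `K₀`, `y₁ ∈ E₀`,
`B₀ = chartClosure A₀ E₀ y₁`; `A` ANY valuation subring of `ℚ̄`.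

**`bc_generic`** : every `f ∈ F` integral over `A[bc y₁]` has a nonzero multiple `c f`, `c ∈ A`,
in the `A`-span of `bc (B₀)` :  `c f = ∑ aᵢ bc(bᵢ)`, `aᵢ ∈ A`, `bᵢ ∈ B₀`.

Proof: `f ∈ E₀(θ)` for an algebraic integer `θ` (primitive element); a nonzero integer multiple
`D f` is integral over `B₀`; the minimal polynomial `m` of `θ` over `E₀` has constant
coefficients (`K₀` is algebraically closed in `K₀((q))`), integral over `ℤ`; by the trace-dual
argument (`icbc_in_field`) `m'(θ) D f ∈ B₀[θ]`.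
-/

set_option autoImplicit false
set_option maxHeartbeats 1600000
set_option synthInstance.maxHeartbeats 400000
set_option linter.style.haveILetI false
set_option linter.unusedSectionVars false

noncomputable section

namespace Fermat.Agent.H70.ORD

open ModularCurve AlgebraicCurve Fermat.Agent.H93.KL Fermat.Agent.H22.KL Polynomial

variable {K₀ : Type} [Field K₀] [Algebra ℚ K₀] (ι₀ : K₀ →+* QBar)
  (F₀ : IntermediateField ℚ (LaurentSeries ℚ))

/-- Elements integral over `ℤ` are integral over every ring. -/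
theorem bcg_isIntegral_of_int {B F : Type*} [CommRing B] [CommRing F] [Algebra B F] {x : F}
    (h : IsIntegral ℤ x) : IsIntegral B x := by
  obtain ⟨p, hp, hpx⟩ := h
  refine ⟨p.map (Int.castRingHom B), hp.map _, ?_⟩
  rw [eval₂_map]
  have : (algebraMap B F).comp (Int.castRingHom B) = algebraMap ℤ F := Subsingleton.elim _ _
  rw [this]
  exact hpx

/-- Algebraic integers lie in every valuation subring of `ℚ̄`. -/
theorem bcg_mem_of_isIntegral (A : ValuationSubring QBar) {c : QBar} (hc : IsIntegral ℤ c) :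
    c ∈ A := by
  have h1 : IsIntegral ↥A c := hc.tower_top
  obtain ⟨a, ha⟩ := IsIntegrallyClosed.isIntegral_iff.mp h1
  rw [← ha]
  exact a.2

/-- An element of `E₀` integral over `ℤ` is a constant (integral over `ℤ`). -/
theorem bcg_const_of_isIntegral (e : ↥(laurentBaseChange K₀ F₀)) (he : IsIntegral ℤ e) :
    ∃ k : K₀, IsIntegral ℤ k ∧ algebraMap K₀ ↥(laurentBaseChange K₀ F₀) k = e := by
  have h1 : IsIntegral K₀ e := he.tower_top
  have h2 : IsIntegral K₀ ((e : ↥(laurentBaseChange K₀ F₀)) : LaurentSeries K₀) := by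
    obtain ⟨p, hp, hpe⟩ := h1
    refine ⟨p, hp, ?_⟩
    have h3 : ((eval₂ (algebraMap K₀ ↥(laurentBaseChange K₀ F₀)) e p :
        ↥(laurentBaseChange K₀ F₀)) : LaurentSeries K₀) = 0 := by rw [hpe]; rfl
    rw [← h3]
    exact (Polynomial.hom_eval₂ p (algebraMap K₀ ↥(laurentBaseChange K₀ F₀))
      ((laurentBaseChange K₀ F₀).val : ↥(laurentBaseChange K₀ F₀) →+* LaurentSeries K₀)
      e).symm
  obtain ⟨c, hc⟩ := Fermat.Agent.H98.KL.exists_const_of_isAlgebraic
    ((e : ↥(laurentBaseChange K₀ F₀)) : LaurentSeries K₀) h2.isAlgebraic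
  have hce : algebraMap K₀ ↥(laurentBaseChange K₀ F₀) c = e := Subtype.ext hc
  refine ⟨c, ?_, hce⟩
  rw [← hce] at he
  exact (isIntegral_algebraMap_iff (algebraMap K₀ ↥(laurentBaseChange K₀ F₀)).injective).mp he

/-- The subring of `F` of the constants integral over `ℤ`. -/
def bcgInt : Subring ↥(laurentBaseChange QBar F₀) :=
  (integralClosure ℤ QBar).toSubring.map (algebraMap QBar ↥(laurentBaseChange QBar F₀))

theorem mem_bcgInt_iff (x : ↥(laurentBaseChange QBar F₀)) :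
    x ∈ bcgInt F₀ ↔ ∃ c : QBar, IsIntegral ℤ c ∧
      algebraMap QBar ↥(laurentBaseChange QBar F₀) c = x := by
  constructor
  · rintro ⟨c, hc, rfl⟩
    exact ⟨c, hc, rfl⟩
  · rintro ⟨c, hc, rfl⟩
    exact ⟨c, hc, rfl⟩

/-- **`m'(θ)` is a constant integral over `ℤ`**, `m` the minimal polynomial over `E₀` of a
constant `θ` integral over `ℤ`. -/
theorem bcg_derivative_const (θ₀ : QBar) (hθ₀ : IsIntegral ℤ θ₀) :
    letI algF : Algebra ↥(laurentBaseChange K₀ F₀) ↥(laurentBaseChange QBar F₀) :=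
      (klBc ι₀ F₀).toAlgebra
    aeval (algebraMap QBar ↥(laurentBaseChange QBar F₀) θ₀)
      (derivative (minpoly ↥(laurentBaseChange K₀ F₀)
        (algebraMap QBar ↥(laurentBaseChange QBar F₀) θ₀))) ∈ bcgInt F₀ := by
  letI algF : Algebra ↥(laurentBaseChange K₀ F₀) ↥(laurentBaseChange QBar F₀) :=
    (klBc ι₀ F₀).toAlgebra
  set θ : ↥(laurentBaseChange QBar F₀) := algebraMap QBar ↥(laurentBaseChange QBar F₀) θ₀
    with hθ
  have hθint : IsIntegral ℤ θ := map_isIntegral_int _ hθ₀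
  have hθE : IsIntegral ↥(laurentBaseChange K₀ F₀) θ := hθint.tower_top
  set g := minpoly ↥(laurentBaseChange K₀ F₀) θ with hg
  have hdvd : g ∣ (minpoly ℤ θ₀).map (algebraMap ℤ ↥(laurentBaseChange K₀ F₀)) := by
    apply minpoly.dvd
    rw [aeval_map_algebraMap, hθ, aeval_algebraMap_apply, minpoly.aeval, map_zero]
  have hlift := integralClosure.mem_lifts_of_monic_of_dvd_map ↥(laurentBaseChange K₀ F₀)
    (minpoly.monic hθ₀) (minpoly.monic hθE) hdvd
  rw [lifts_iff_coeff_lifts] at hlift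
  have hcoeff : ∀ i, algebraMap ↥(laurentBaseChange K₀ F₀) ↥(laurentBaseChange QBar F₀)
      (g.coeff i) ∈ bcgInt F₀ := by
    intro i
    obtain ⟨e, he⟩ := hlift i
    obtain ⟨k, hk, hke⟩ := bcg_const_of_isIntegral F₀ (e : ↥(laurentBaseChange K₀ F₀)) e.2
    rw [mem_bcgInt_iff]
    refine ⟨ι₀ k, map_isIntegral_int ι₀ hk, ?_⟩
    have e1 : g.coeff i = algebraMap K₀ ↥(laurentBaseChange K₀ F₀) k := by
      rw [hke, ← he]; rfl
    rw [e1]
    exact (Fermat.Agent.H73.KLDesc.klBc_algebraMap ι₀ F₀ k).symm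
  have hθT : θ ∈ bcgInt F₀ := (mem_bcgInt_iff F₀ θ).mpr ⟨θ₀, hθ₀, rfl⟩
  rw [aeval_eq_sum_range]
  refine Subring.sum_mem _ fun i _ => ?_
  rw [Algebra.smul_def]
  refine Subring.mul_mem _ ?_ (Subring.pow_mem _ hθT i)
  rw [coeff_derivative, map_mul]
  refine Subring.mul_mem _ (hcoeff _) ?_
  have : algebraMap ↥(laurentBaseChange K₀ F₀) ↥(laurentBaseChange QBar F₀)
      ((i : ↥(laurentBaseChange K₀ F₀)) + 1) = ((i + 1 : ℕ) : ↥(laurentBaseChange QBar F₀)) := by
    simp
  rw [this]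
  exact natCast_mem _ _

/-- A primitive element for a finite set of algebraic numbers. -/
theorem bcg_primitive (s : Finset QBar) :
    ∃ θ₁ : QBar, ∀ x ∈ s, x ∈ IntermediateField.adjoin ℚ ({θ₁} : Set QBar) := by
  have hsint : ∀ x ∈ (s : Set QBar), IsIntegral ℚ x := fun x _ =>
    ((AlgebraicClosure.isAlgebraic ℚ).isAlgebraic x).isIntegral
  haveI : FiniteDimensional ℚ ↥(IntermediateField.adjoin ℚ (s : Set QBar)) :=
    IntermediateField.finiteDimensional_adjoin hsint
  obtain ⟨α, hα⟩ := Field.exists_primitive_element ℚ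
    ↥(IntermediateField.adjoin ℚ (s : Set QBar))
  refine ⟨(α : QBar), fun x hx => ?_⟩
  have hxs : x ∈ IntermediateField.adjoin ℚ (s : Set QBar) :=
    IntermediateField.subset_adjoin _ _ hx
  have h1 : (⟨x, hxs⟩ : ↥(IntermediateField.adjoin ℚ (s : Set QBar))) ∈
      IntermediateField.adjoin ℚ ({α} : Set ↥(IntermediateField.adjoin ℚ (s : Set QBar))) := by
    rw [hα]; exact IntermediateField.mem_top
  rw [IntermediateField.mem_adjoin_simple_iff] at h1 ⊢
  obtain ⟨r, t, hrt⟩ := h1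
  refine ⟨r, t, ?_⟩
  have h2 := congrArg (fun z : ↥(IntermediateField.adjoin ℚ (s : Set QBar)) => (z : QBar)) hrt
  simp only at h2
  rw [h2]
  have key : ∀ p : ℚ[X], ((aeval α p : ↥(IntermediateField.adjoin ℚ (s : Set QBar))) : QBar) =
      aeval (α : QBar) p := by
    intro p
    rw [aeval_def, aeval_def]
    have := Polynomial.hom_eval₂ p (algebraMap ℚ ↥(IntermediateField.adjoin ℚ (s : Set QBar)))
      ((IntermediateField.adjoin ℚ (s : Set QBar)).val :
        ↥(IntermediateField.adjoin ℚ (s : Set QBar)) →+* QBar) α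
    rw [show ((IntermediateField.adjoin ℚ (s : Set QBar)).val :
        ↥(IntermediateField.adjoin ℚ (s : Set QBar)) →+* QBar).comp
        (algebraMap ℚ ↥(IntermediateField.adjoin ℚ (s : Set QBar))) =
        algebraMap ℚ QBar from Subsingleton.elim _ _] at this
    exact this
  push_cast
  rw [key, key]

/-- **A primitive algebraic integer** : every `f ∈ F` lies in `E₀(θ)` for a constant `θ`
integral over `ℤ`. -/
theorem bcg_exists_theta (f : ↥(laurentBaseChange QBar F₀)) :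
    letI algF : Algebra ↥(laurentBaseChange K₀ F₀) ↥(laurentBaseChange QBar F₀) :=
      (klBc ι₀ F₀).toAlgebra
    ∃ θ₀ : QBar, IsIntegral ℤ θ₀ ∧
      f ∈ IntermediateField.adjoin ↥(laurentBaseChange K₀ F₀)
        ({algebraMap QBar ↥(laurentBaseChange QBar F₀) θ₀} :
          Set ↥(laurentBaseChange QBar F₀)) := by
  classical
  letI algF : Algebra ↥(laurentBaseChange K₀ F₀) ↥(laurentBaseChange QBar F₀) :=
    (klBc ι₀ F₀).toAlgebra
  obtain ⟨s, g, hs⟩ := exists_sum_klBc ι₀ F₀ f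
  obtain ⟨θ₁, hθ₁⟩ := bcg_primitive s
  -- scaling to an algebraic integer
  have halg : IsAlgebraic ℤ θ₁ :=
    (IsFractionRing.isAlgebraic_iff ℤ ℚ QBar).mpr ((AlgebraicClosure.isAlgebraic ℚ).isAlgebraic θ₁)
  obtain ⟨d, hd0, hdint⟩ := IsAlgebraic.exists_integral_multiple halg
  refine ⟨d • θ₁, hdint, ?_⟩
  set L := IntermediateField.adjoin ↥(laurentBaseChange K₀ F₀)
    ({algebraMap QBar ↥(laurentBaseChange QBar F₀) (d • θ₁)} :
      Set ↥(laurentBaseChange QBar F₀)) with hL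
  -- the constants of `L`
  let S : Subfield QBar := L.toSubfield.comap (algebraMap QBar ↥(laurentBaseChange QBar F₀))
  have hS₀ : d • θ₁ ∈ S := by
    show algebraMap QBar ↥(laurentBaseChange QBar F₀) (d • θ₁) ∈ L
    exact IntermediateField.mem_adjoin_simple_self _ _
  have hdQ : (d : QBar) ≠ 0 := by exact_mod_cast hd0
  have hS₁ : θ₁ ∈ S := by
    have e : θ₁ = (d : QBar)⁻¹ * (d • θ₁) := by
      rw [zsmul_eq_mul, ← mul_assoc, inv_mul_cancel₀ hdQ, one_mul]
    rw [e]
    exact S.mul_mem (S.inv_mem (intCast_mem S d)) hS₀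
  let S' : IntermediateField ℚ QBar := Subfield.toIntermediateField S (fun q => by
    rw [eq_ratCast (algebraMap ℚ QBar) q]
    exact SubfieldClass.ratCast_mem S q)
  have hle : IntermediateField.adjoin ℚ ({θ₁} : Set QBar) ≤ S' := by
    rw [IntermediateField.adjoin_simple_le_iff]
    exact hS₁
  rw [hs]
  refine sum_mem fun c hc => mul_mem ?_ ?_
  · exact hle (hθ₁ c hc)
  · exact IntermediateField.algebraMap_mem L (g c)

/-- **[BC](a), GENERIC BASE CHANGE.**  Every `f ∈ F` integral over `A[bc y₁]` has a nonzero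
multiple `c f`, `c ∈ A`, in the `A`-span of `bc (chartClosure A₀ E₀ y₁)`. -/
theorem bc_generic (A : ValuationSubring QBar)
    (A₀ : Type) [CommRing A₀] [IsDomain A₀] [IsDiscreteValuationRing A₀]
    [Algebra A₀ ↥(laurentBaseChange K₀ F₀)]
    (y₁ : ↥(laurentBaseChange K₀ F₀)) (hy : Transcendental A₀ y₁)
    (hfd : ∃ n : ℕ, Nonempty (Module.Basis (Fin n)
      (chartField A₀ ↥(laurentBaseChange K₀ F₀) y₁) ↥(laurentBaseChange K₀ F₀)))
    (f : ↥(laurentBaseChange QBar F₀))
    (hf : (Subring.closure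
      ((fun c : QBar => algebraMap QBar ↥(laurentBaseChange QBar F₀) c) '' (A : Set QBar) ∪
        {klBc ι₀ F₀ y₁})).subtype.IsIntegralElem f) :
    ∃ c ∈ A, c ≠ 0 ∧ ∃ (n : ℕ) (a : Fin n → QBar) (b : Fin n → ↥(laurentBaseChange K₀ F₀)),
      (∀ i, a i ∈ A) ∧ (∀ i, b i ∈ chartClosure A₀ ↥(laurentBaseChange K₀ F₀) y₁) ∧
      algebraMap QBar ↥(laurentBaseChange QBar F₀) c * f =
        ∑ i, algebraMap QBar ↥(laurentBaseChange QBar F₀) (a i) * klBc ι₀ F₀ (b i) := by
  classical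
  haveI : CharZero K₀ := charZero_of_injective_algebraMap (algebraMap ℚ K₀).injective
  haveI : CharZero ↥(laurentBaseChange K₀ F₀) :=
    charZero_of_injective_algebraMap (algebraMap K₀ ↥(laurentBaseChange K₀ F₀)).injective
  haveI hFR : IsFractionRing ↥(chartClosure A₀ ↥(laurentBaseChange K₀ F₀) y₁)
      ↥(laurentBaseChange K₀ F₀) :=
    Fermat.Agent.H41.SS.chartClosure_isFractionRing A₀ ↥(laurentBaseChange K₀ F₀) y₁ hy hfd
  haveI hIC : IsIntegrallyClosed ↥(chartClosure A₀ ↥(laurentBaseChange K₀ F₀) y₁) :=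
    Fermat.Agent.H4.SS.chartClosure_isIntegrallyClosed A₀ ↥(laurentBaseChange K₀ F₀) y₁ hy hfd
  letI algF : Algebra ↥(laurentBaseChange K₀ F₀) ↥(laurentBaseChange QBar F₀) :=
    (klBc ι₀ F₀).toAlgebra
  have hy₁B : y₁ ∈ chartClosure A₀ ↥(laurentBaseChange K₀ F₀) y₁ :=
    Fermat.Agent.H9.SS.lrc_self_mem_chartClosure y₁
  -- (ii) a nonzero integer multiple of `f` is integral over `B₀`
  have hgen : ∀ x ∈ ((fun c : QBar => algebraMap QBar ↥(laurentBaseChange QBar F₀) c) ''
      (A : Set QBar) ∪ {klBc ι₀ F₀ y₁}),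
      ∃ d : ℤ, ((d : ℤ) : ↥(laurentBaseChange QBar F₀)) ≠ 0 ∧
        IsIntegral ↥(chartClosure A₀ ↥(laurentBaseChange K₀ F₀) y₁)
          (((d : ℤ) : ↥(laurentBaseChange QBar F₀)) * x) := by
    rintro x (⟨c, -, rfl⟩ | hx)
    · have halg : IsAlgebraic ℤ c :=
        (IsFractionRing.isAlgebraic_iff ℤ ℚ QBar).mpr
          ((AlgebraicClosure.isAlgebraic ℚ).isAlgebraic c)
      obtain ⟨d, hd0, hdint⟩ := IsAlgebraic.exists_integral_multiple halg
      refine ⟨d, by exact_mod_cast hd0, ?_⟩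
      have e : ((d : ℤ) : ↥(laurentBaseChange QBar F₀)) *
          algebraMap QBar ↥(laurentBaseChange QBar F₀) c =
          algebraMap QBar ↥(laurentBaseChange QBar F₀) (d • c) := by
        rw [zsmul_eq_mul, map_mul, map_intCast]
      rw [e]
      exact bcg_isIntegral_of_int
        (map_isIntegral_int (algebraMap QBar ↥(laurentBaseChange QBar F₀)) hdint)
    · rw [Set.mem_singleton_iff] at hx
      subst hx
      refine ⟨1, by simp, ?_⟩
      rw [Int.cast_one, one_mul]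
      exact isIntegral_algebraMap
        (x := (⟨y₁, hy₁B⟩ : ↥(chartClosure A₀ ↥(laurentBaseChange K₀ F₀) y₁)))
  obtain ⟨D, hD0, hDint⟩ := icbc_scale_integral _ (icbc_scale_closure _ hgen) f hf
  -- (i) the primitive algebraic integer
  obtain ⟨θ₀, hθ₀, hfθ⟩ := bcg_exists_theta ι₀ F₀ f
  have hθB : IsIntegral ↥(chartClosure A₀ ↥(laurentBaseChange K₀ F₀) y₁)
      (algebraMap QBar ↥(laurentBaseChange QBar F₀) θ₀) :=
    bcg_isIntegral_of_int (map_isIntegral_int (algebraMap QBar ↥(laurentBaseChange QBar F₀)) hθ₀)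
  have hDfθ : ((D : ℤ) : ↥(laurentBaseChange QBar F₀)) * f ∈
      IntermediateField.adjoin ↥(laurentBaseChange K₀ F₀)
        ({algebraMap QBar ↥(laurentBaseChange QBar F₀) θ₀} :
          Set ↥(laurentBaseChange QBar F₀)) :=
    mul_mem (intCast_mem _ D) hfθ
  have key := icbc_in_field (A := ↥(chartClosure A₀ ↥(laurentBaseChange K₀ F₀) y₁))
    (K := ↥(laurentBaseChange K₀ F₀)) (F := ↥(laurentBaseChange QBar F₀))
    (algebraMap QBar ↥(laurentBaseChange QBar F₀) θ₀) hθB _ hDfθ hDint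
  -- (iii) the constant `m'(θ)`
  obtain ⟨c₀, hc₀, hc₀eq⟩ := (mem_bcgInt_iff F₀ _).mp (bcg_derivative_const ι₀ F₀ θ₀ hθ₀)
  have hθE : IsIntegral ↥(laurentBaseChange K₀ F₀)
      (algebraMap QBar ↥(laurentBaseChange QBar F₀) θ₀) := hθB.tower_top
  have hne : aeval (algebraMap QBar ↥(laurentBaseChange QBar F₀) θ₀)
      (derivative (minpoly ↥(laurentBaseChange K₀ F₀)
        (algebraMap QBar ↥(laurentBaseChange QBar F₀) θ₀))) ≠ 0 :=
    Polynomial.Separable.aeval_derivative_ne_zero (minpoly.irreducible hθE).separable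
      (minpoly.aeval _ _)
  have hc₀ne : c₀ ≠ 0 := by
    rintro rfl
    rw [map_zero] at hc₀eq
    exact hne hc₀eq.symm
  have hDQ : ((D : ℤ) : QBar) ≠ 0 := by
    intro h0
    apply hD0
    have := congrArg (algebraMap QBar ↥(laurentBaseChange QBar F₀)) h0
    rwa [map_intCast, map_zero] at this
  -- (iv) expansion of an element of `B₀[θ]`
  rw [Algebra.adjoin_singleton_eq_range_aeval] at key
  obtain ⟨q, hq⟩ := key
  refine ⟨c₀ * (D : QBar), A.mul_mem _ _ (bcg_mem_of_isIntegral A hc₀) (intCast_mem A D),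
    mul_ne_zero hc₀ne hDQ, q.natDegree + 1, fun i => θ₀ ^ (i : ℕ),
    fun i => ((q.coeff (i : ℕ) : ↥(chartClosure A₀ ↥(laurentBaseChange K₀ F₀) y₁)) :
      ↥(laurentBaseChange K₀ F₀)),
    fun i => pow_mem (bcg_mem_of_isIntegral A hθ₀) _, fun i => (q.coeff (i : ℕ)).2, ?_⟩
  have hq' : aeval (algebraMap QBar ↥(laurentBaseChange QBar F₀) θ₀) q =
      aeval (algebraMap QBar ↥(laurentBaseChange QBar F₀) θ₀)
        (derivative (minpoly ↥(laurentBaseChange K₀ F₀)
          (algebraMap QBar ↥(laurentBaseChange QBar F₀) θ₀))) *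
        (((D : ℤ) : ↥(laurentBaseChange QBar F₀)) * f) := hq
  rw [map_mul, map_intCast, hc₀eq, mul_assoc, ← hq', aeval_eq_sum_range, Finset.sum_range]
  refine Finset.sum_congr rfl fun i _ => ?_
  rw [Algebra.smul_def, map_pow, mul_comm]
  rfl

end Fermat.Agent.H70.ORD
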