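import Fermat.Agent.H70.ORD.BcGeneric
import Fermat.Agent.H84.ORD.NodalModel

/-!
# P-ORD, block B1-ANCHOR, step [BC](a) for the charts `nmChart` of `X₀(N)` (helper70)

`bc_generic_nmChart` : for ANY field `ι₀ : K₀ → ℚ̄`, ANY discrete valuation ring `A₀` acting on
`ModelField K₀ N`, `y₁ ∈ ModelField K₀ N` transcendental over `A₀` with `ModelField K₀ N` finite
over `K₀(y₁)`, ANY valuation subring `A` of `ℚ̄` : every
`f ∈ nmChart N A (klBc ι₀ y₁)` satisfies `c f = ∑ aᵢ klBc (bᵢ)` with `c ≠ 0`, `c, aᵢ ∈ A`,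
`bᵢ ∈ chartClosure A₀ (ModelField K₀ N) y₁` (exact input shape of helper92's `bcs_baseChange`).
-/

set_option autoImplicit false
set_option maxHeartbeats 1600000
set_option synthInstance.maxHeartbeats 400000
set_option linter.style.haveILetI false
set_option linter.unusedSectionVars false

noncomputable section

namespace Fermat.Agent.H70.ORD

open ModularCurve AlgebraicCurve Fermat.Agent.H93.KL Fermat.Agent.H22.KL
open Fermat.Agent.H72.FF Fermat.Agent.H84.ORD

/-- **[BC](a) for `nmChart`.** -/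
theorem bc_generic_nmChart (N : ℕ) (A : ValuationSubring Qb)
    {K₀ : Type} [Field K₀] [Algebra ℚ K₀] (ι₀ : K₀ →+* Qb)
    (A₀ : Type) [CommRing A₀] [IsDomain A₀] [IsDiscreteValuationRing A₀]
    [Algebra A₀ (ModelField K₀ N)]
    (y₁ : ModelField K₀ N) (hy : Transcendental A₀ y₁)
    (hfd : ∃ n : ℕ, Nonempty (Module.Basis (Fin n)
      (chartField A₀ (ModelField K₀ N) y₁) (ModelField K₀ N)))
    (f : FLb N) (hf : f ∈ nmChart N A (klBc ι₀ (modularFunctionFieldFull N) y₁)) :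
    ∃ c ∈ A, c ≠ 0 ∧ ∃ (n : ℕ) (a : Fin n → Qb) (b : Fin n → ModelField K₀ N),
      (∀ i, a i ∈ A) ∧ (∀ i, b i ∈ chartClosure A₀ (ModelField K₀ N) y₁) ∧
      algebraMap Qb (FLb N) c * f =
        ∑ i, algebraMap Qb (FLb N) (a i) * klBc ι₀ (modularFunctionFieldFull N) (b i) :=
  bc_generic ι₀ (modularFunctionFieldFull N) A A₀ y₁ hy hfd f hf

end Fermat.Agent.H70.ORD
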