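import Mathlib

/-!
# P-ORD, block B1-ANCHOR, step [BC](a), abstract core (helper70; Mathlib only)

`A` an integrally closed domain with fraction field `K` (characteristic zero), `F ⊇ K` a field,
`θ ∈ F` integral over `A`, `f ∈ K(θ)` integral over `A`.  Then
`m'(θ) f ∈ A[θ]`, `m` the minimal polynomial of `θ` over `K`
(the dual of `A[θ]` for the trace form is `m'(θ)⁻¹ A[θ]`).

* `icbc_adjoin` : in a finite separable extension `L = K[x]`.
* `icbc_in_field` : inside an arbitrary extension field `F`.
-/

set_option autoImplicit false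

noncomputable section

namespace Fermat.Agent.H70.ORD

open Polynomial

/-- **The integral closure of `A` in `L = K[x]` is contained in `m'(x)⁻¹ A[x]`.** -/
theorem icbc_adjoin {A K L : Type*} [CommRing A] [IsDomain A] [IsIntegrallyClosed A]
    [Field K] [Field L] [Algebra A K] [IsFractionRing A K] [Algebra K L] [Algebra A L]
    [IsScalarTower A K L] [FiniteDimensional K L] [Algebra.IsSeparable K L] {x : L}
    (hx : Algebra.adjoin K {x} = ⊤) (hAx : IsIntegral A x) (f : L) (hf : IsIntegral A f) :
    aeval x (derivative (minpoly K x)) * f ∈ Algebra.adjoin A {x} := by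
  have h1 : f ∈ (Algebra.traceForm K L).dualSubmodule
      (Subalgebra.toSubmodule (Algebra.adjoin A {x})) := by
    rw [LinearMap.BilinForm.mem_dualSubmodule]
    intro y hy
    have hy' : IsIntegral A y := by
      have hle : Algebra.adjoin A {x} ≤ integralClosure A L :=
        Algebra.adjoin_le (Set.singleton_subset_iff.mpr hAx)
      exact hle hy
    rw [Submodule.mem_one]
    exact IsIntegrallyClosed.isIntegral_iff.mp (Algebra.isIntegral_trace (hf.mul hy'))
  rw [traceForm_dualSubmodule_adjoin A K hx hAx] at h1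
  rw [Submodule.mem_smul_pointwise_iff_exists] at h1
  obtain ⟨g, hg, rfl⟩ := h1
  have hne : aeval x (derivative (minpoly K x)) ≠ 0 := by
    have hsep : IsSeparable K x := Algebra.IsSeparable.isSeparable K x
    exact (Polynomial.Separable.aeval_derivative_ne_zero hsep (minpoly.aeval K x))
  rw [smul_eq_mul, mul_inv_cancel_left₀ hne]
  exact hg

/-- **The same inside an arbitrary extension field `F`** : `θ ∈ F` integral over `A`,
`f ∈ K(θ)` integral over `A`; then `m'(θ) f ∈ A[θ]`. -/
theorem icbc_in_field {A K F : Type*} [CommRing A] [IsDomain A] [IsIntegrallyClosed A]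
    [Field K] [CharZero K] [Field F] [Algebra A K] [IsFractionRing A K] [Algebra K F]
    [Algebra A F] [IsScalarTower A K F] (θ : F) (hθ : IsIntegral A θ) (f : F)
    (hfθ : f ∈ IntermediateField.adjoin K ({θ} : Set F)) (hf : IsIntegral A f) :
    aeval θ (derivative (minpoly K θ)) * f ∈ Algebra.adjoin A ({θ} : Set F) := by
  have hθK : IsIntegral K θ := hθ.tower_top
  haveI : FiniteDimensional K ↥(IntermediateField.adjoin K ({θ} : Set F)) :=
    IntermediateField.adjoin.finiteDimensional hθK
  haveI : Algebra.IsSeparable K ↥(IntermediateField.adjoin K ({θ} : Set F)) :=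
    Algebra.IsSeparable.of_integral K _
  set L := IntermediateField.adjoin K ({θ} : Set F) with hL
  set x : ↥L := IntermediateField.AdjoinSimple.gen K θ with hxdef
  have hxθ : ((x : ↥L) : F) = θ := IntermediateField.AdjoinSimple.coe_gen K θ
  have hinj : Function.Injective (algebraMap ↥L F) := (algebraMap ↥L F).injective
  haveI : IsScalarTower A ↥L F := IsScalarTower.of_algebraMap_eq (fun a => rfl)
  have hAx : IsIntegral A x := by
    have : IsIntegral A (algebraMap ↥L F x) := by
      show IsIntegral A ((x : ↥L) : F)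
      rw [hxθ]; exact hθ
    exact (isIntegral_algebraMap_iff hinj).mp this
  have hAf : IsIntegral A (⟨f, hfθ⟩ : ↥L) := by
    have : IsIntegral A (algebraMap ↥L F ⟨f, hfθ⟩) := hf
    exact (isIntegral_algebraMap_iff hinj).mp this
  have hx : Algebra.adjoin K {x} = ⊤ := by
    have h1 := IntermediateField.adjoin_simple_toSubalgebra_of_isAlgebraic hθK.isAlgebraic
    -- `K[x] = ⊤` inside `L`
    rw [eq_top_iff]
    rintro ⟨z, hz⟩ -
    have hz' : z ∈ (IntermediateField.adjoin K ({θ} : Set F)).toSubalgebra := hz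
    rw [h1] at hz'
    -- `z = p(θ)`
    rw [Algebra.adjoin_singleton_eq_range_aeval] at hz'
    obtain ⟨p, hp⟩ := hz'
    have : (⟨z, hz⟩ : ↥L) = aeval x p := by
      apply Subtype.ext
      show z = ((aeval x p : ↥L) : F)
      have e : ((aeval x p : ↥L) : F) = aeval ((x : ↥L) : F) p := by
        have := Polynomial.aeval_algHom_apply (L.val) x p
        exact this.symm
      rw [e, hxθ]
      exact hp.symm
    rw [this, Algebra.adjoin_singleton_eq_range_aeval]
    exact ⟨p, rfl⟩
  have key := icbc_adjoin (A := A) (K := K) (L := ↥L) hx hAx ⟨f, hfθ⟩ hAf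
  -- transport to `F`
  have hmin : minpoly K x = minpoly K θ := IntermediateField.minpoly_gen K θ
  rw [hmin] at key
  have himg : ∀ z : ↥L, z ∈ Algebra.adjoin A ({x} : Set ↥L) →
      (z : F) ∈ Algebra.adjoin A ({θ} : Set F) := by
    intro z hz
    rw [Algebra.adjoin_singleton_eq_range_aeval] at hz ⊢
    obtain ⟨p, rfl⟩ := hz
    refine ⟨p, ?_⟩
    have e : ((aeval x p : ↥L) : F) = aeval ((x : ↥L) : F) p := by
      have := Polynomial.aeval_algHom_apply ((L.val).restrictScalars A) x p
      exact this.symm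
    show aeval θ p = ((aeval x p : ↥L) : F)
    rw [e, hxθ]
  have h2 := himg _ key
  have e2 : ((aeval x (derivative (minpoly K θ)) * (⟨f, hfθ⟩ : ↥L) : ↥L) : F) =
      aeval θ (derivative (minpoly K θ)) * f := by
    have e : ((aeval x (derivative (minpoly K θ)) : ↥L) : F) =
        aeval ((x : ↥L) : F) (derivative (minpoly K θ)) := by
      have := Polynomial.aeval_algHom_apply (L.val) x (derivative (minpoly K θ))
      exact this.symm
    show ((aeval x (derivative (minpoly K θ)) : ↥L) : F) * f = _
    rw [e, hxθ]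
  rw [e2] at h2
  exact h2

/-! ### Integer multiples integral over `B` -/

theorem icbc_isIntegral_intCast {B F : Type*} [CommRing B] [Field F] [Algebra B F] (n : ℤ) :
    IsIntegral B ((n : ℤ) : F) := by
  have : ((n : ℤ) : F) = algebraMap B F (n : B) := (map_intCast (algebraMap B F) n).symm
  rw [this]
  exact isIntegral_algebraMap

/-- The elements having a nonzero integer multiple integral over `B` form a subring. -/
theorem icbc_scale_closure {B F : Type*} [CommRing B] [Field F] [Algebra B F] (S : Set F)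
    (hS : ∀ x ∈ S, ∃ d : ℤ, (d : F) ≠ 0 ∧ IsIntegral B ((d : F) * x)) :
    ∀ x ∈ Subring.closure S, ∃ d : ℤ, (d : F) ≠ 0 ∧ IsIntegral B ((d : F) * x) := by
  intro x hx
  induction hx using Subring.closure_induction with
  | mem x hx => exact hS x hx
  | zero => exact ⟨1, by simp, by rw [mul_zero]; exact isIntegral_zero⟩
  | one => exact ⟨1, by simp, by rw [mul_one, Int.cast_one]; exact isIntegral_one⟩
  | add x y _ _ hx hy =>
    obtain ⟨d₁, h₁, i₁⟩ := hx
    obtain ⟨d₂, h₂, i₂⟩ := hy
    refine ⟨d₁ * d₂, by rw [Int.cast_mul]; exact mul_ne_zero h₁ h₂, ?_⟩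
    have e : ((d₁ * d₂ : ℤ) : F) * (x + y) =
        (d₂ : F) * ((d₁ : F) * x) + (d₁ : F) * ((d₂ : F) * y) := by
      rw [Int.cast_mul]; ring
    rw [e]
    exact ((icbc_isIntegral_intCast d₂).mul i₁).add ((icbc_isIntegral_intCast d₁).mul i₂)
  | neg x _ hx =>
    obtain ⟨d₁, h₁, i₁⟩ := hx
    refine ⟨d₁, h₁, ?_⟩
    rw [mul_neg]
    exact i₁.neg
  | mul x y _ _ hx hy =>
    obtain ⟨d₁, h₁, i₁⟩ := hx
    obtain ⟨d₂, h₂, i₂⟩ := hy
    refine ⟨d₁ * d₂, by rw [Int.cast_mul]; exact mul_ne_zero h₁ h₂, ?_⟩
    have e : ((d₁ * d₂ : ℤ) : F) * (x * y) = ((d₁ : F) * x) * ((d₂ : F) * y) := by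
      rw [Int.cast_mul]; ring
    rw [e]
    exact i₁.mul i₂

/-- **Scaling.**  If every element of the subring `P` has a nonzero integer multiple integral
over `B`, so has every element integral over `P`. -/
theorem icbc_scale_integral {B F : Type*} [CommRing B] [Field F] [Algebra B F] (P : Subring F)
    (hP : ∀ x ∈ P, ∃ d : ℤ, (d : F) ≠ 0 ∧ IsIntegral B ((d : F) * x)) (f : F)
    (hf : P.subtype.IsIntegralElem f) :
    ∃ d : ℤ, (d : F) ≠ 0 ∧ IsIntegral B ((d : F) * f) := by
  classical
  obtain ⟨p, hpm, hpf⟩ := hf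
  have hP' : ∀ x : F, ∃ d : ℤ, x ∈ P → (d : F) ≠ 0 ∧ IsIntegral B ((d : F) * x) := by
    intro x
    by_cases hx : x ∈ P
    · obtain ⟨d, h1, h2⟩ := hP x hx
      exact ⟨d, fun _ => ⟨h1, h2⟩⟩
    · exact ⟨0, fun h => absurd h hx⟩
  choose d hd using hP'
  set n := p.natDegree with hn
  set D : ℤ := ∏ i ∈ Finset.range (n + 1), d ((p.coeff i : ↥P) : F) with hD
  have hD0 : (D : F) ≠ 0 := by
    rw [hD, Int.cast_prod]
    exact Finset.prod_ne_zero_iff.mpr fun i _ => (hd _ (p.coeff i).2).1
  have hDint : ∀ i ∈ Finset.range (n + 1), IsIntegral B ((D : F) * ((p.coeff i : ↥P) : F)) := by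
    intro i hi
    have e : (D : F) = ((∏ j ∈ (Finset.range (n + 1)).erase i, d ((p.coeff j : ↥P) : F) : ℤ) : F)
        * (d ((p.coeff i : ↥P) : F) : F) := by
      rw [← Int.cast_mul, hD, Finset.prod_erase_mul _ _ hi]
    rw [e, mul_assoc]
    exact (icbc_isIntegral_intCast _).mul (hd _ (p.coeff i).2).2
  set p' : F[X] := p.map P.subtype with hp'
  have hp'm : p'.Monic := hpm.map _
  have hp'n : p'.natDegree = n := hpm.natDegree_map _
  have hp'f : aeval f p' = 0 := by
    rw [hp', aeval_def, eval₂_map]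
    exact hpf
  have hq0 : aeval ((D : F) * f) (p'.scaleRoots (D : F)) = 0 := by
    have := scaleRoots_aeval_eq_zero (R := F) (A := F) (p := p') (a := f) (r := (D : F)) hp'f
    simpa using this
  have hqm : (p'.scaleRoots (D : F)).Monic := (monic_scaleRoots_iff _).mpr hp'm
  have hqc : ∀ i, IsIntegral B ((p'.scaleRoots (D : F)).coeff i) := by
    intro i
    rw [coeff_scaleRoots, hp'n]
    have hci : p'.coeff i = ((p.coeff i : ↥P) : F) := by
      rw [hp', coeff_map]; rfl
    rcases lt_trichotomy i n with h | h | h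
    · have e : n - i = (n - i - 1) + 1 := by omega
      rw [e, pow_succ, hci]
      have e2 : ((p.coeff i : ↥P) : F) * ((D : F) ^ (n - i - 1) * (D : F)) =
          ((D : F) * ((p.coeff i : ↥P) : F)) * (D : F) ^ (n - i - 1) := by ring
      rw [e2]
      exact (hDint i (Finset.mem_range.mpr (by omega))).mul
        ((icbc_isIntegral_intCast D).pow _)
    · rw [h, Nat.sub_self, pow_zero, mul_one, ← hp'n]
      have : p'.coeff p'.natDegree = 1 := hp'm
      rw [this]
      exact isIntegral_one
    · rw [coeff_eq_zero_of_natDegree_lt (by rw [hp'n]; exact h), zero_mul]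
      exact isIntegral_zero
  have hlift : p'.scaleRoots (D : F) ∈ lifts (algebraMap ↥(integralClosure B F) F) := by
    rw [lifts_iff_coeff_lifts]
    intro i
    exact ⟨⟨_, hqc i⟩, rfl⟩
  obtain ⟨q', hq'map, -, hq'm⟩ := lifts_and_natDegree_eq_and_monic hlift hqm
  have hint : IsIntegral ↥(integralClosure B F) ((D : F) * f) := by
    refine ⟨q', hq'm, ?_⟩
    rw [← aeval_def, ← aeval_map_algebraMap F, hq'map]
    exact hq0
  exact ⟨D, hD0, isIntegral_trans _ hint⟩

end Fermat.Agent.H70.ORD
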