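import Fermat.Agent.H70.ORD.Restrict

/-!
# P-ORD, block B1 (descent rows) : the converse of (R1) (helper70)

A valuation subring `O` of `F = laurentBaseChange ℚ̄ F₀` whose trace on
`E₁ = laurentBaseChange K₁ F₀` is (the valuation ring of) a place `P₁` of `E₁ / K₁` is a place of
`F / ℚ̄`, unramified over `P₁`.

* `place_of_constExt_val` : abstract form (twin of `H73.KLDesc.exists_place_of_constExt` with the
  valuation subring GIVEN).
* **`place_of_comap_eq`** : the instance for `klBc ι F₀`.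
* `place_of_comap_eq'` : the same with the hypothesis `O.comap (klBc ι F₀) = O_{P₁}`.
-/

set_option autoImplicit false
set_option linter.style.haveILetI false
set_option linter.unusedSectionVars false

noncomputable section

namespace Fermat.Agent.H70.ORD

open ModularCurve AlgebraicCurve Fermat.Agent.H93.KL

/-- **Abstract form.**  `E` is generated over `F₁` by the image of a field `K` of elements
integral over the constant field `K₁` of `F₁`; `P₁` a place of `F₁ / K₁`; `V` a valuation
subring of `E` with `V ∩ F₁ = O_{P₁}`.  Then `V` is a place of `E / K`, with ramification index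
one over `P₁`. -/
theorem place_of_constExt_val
    (K₁ F₁ K E : Type) [Field K₁] [Field F₁] [Field K] [Field E] [CharZero K₁]
    [Algebra K₁ F₁] [Algebra F₁ E] [Algebra K₁ E] [IsScalarTower K₁ F₁ E] [Algebra K E]
    (hint : ∀ c : K, IsIntegral K₁ (algebraMap K E c))
    (hgen : IntermediateField.adjoin F₁ (Set.range (algebraMap K E)) = ⊤)
    (P₁ : Place K₁ F₁) (V : ValuationSubring E)
    (hV : ∀ x : F₁, algebraMap F₁ E x ∈ V ↔ x ∈ P₁.toValuationSubring) :
    ∃ P : Place K E, P.toValuationSubring = V ∧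
      ∀ f : F₁, P.ord (algebraMap F₁ E f) = P₁.ord f := by
  obtain ⟨π, hπ⟩ := IsDiscreteValuationRing.exists_irreducible P₁.toValuationSubring
  have hπord : P₁.ord (π : F₁) = 1 := P₁.ord_coe_irreducible hπ
  have hπ0 : (π : F₁) ≠ 0 := by
    intro h0
    rw [h0, Place.ord_zero] at hπord
    omega
  have hπi : (π : F₁)⁻¹ ∉ P₁.toValuationSubring := by
    intro hmem
    have := Fermat.Agent.H29.place_ord_nonneg_of_mem P₁ hmem
    rw [Place.ord_inv, hπord] at this
    omega
  have hunif : ∀ x : F₁, x ≠ 0 → ∃ n : ℤ, x * (π : F₁) ^ n ∈ P₁.toValuationSubring ∧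
      (x * (π : F₁) ^ n)⁻¹ ∈ P₁.toValuationSubring := by
    intro x hx
    have hord : P₁.ord (x * (π : F₁) ^ (-P₁.ord x)) = 0 := by
      rw [P₁.ord_mul hx (zpow_ne_zero _ hπ0), P₁.ord_zpow, hπord]
      ring
    refine ⟨-P₁.ord x, Fermat.Agent.H29.place_mem_of_ord_nonneg P₁ hord.ge,
      Fermat.Agent.H29.place_mem_of_ord_nonneg P₁ ?_⟩
    rw [Place.ord_inv, hord, neg_zero]
  have key := constExtUnramified K₁ F₁ E (Set.range (algebraMap K E))
    (by rintro _ ⟨c, rfl⟩; exact hint c) hgen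
    P₁.toValuationSubring V P₁.algebraMap_mem' hV (π : F₁) π.2 hπi hunif
  have hτ : algebraMap F₁ E (π : F₁) ∈ V := (hV _).mpr π.2
  have hτi : (algebraMap F₁ E (π : F₁))⁻¹ ∉ V := by
    rw [← map_inv₀]
    exact fun hmem => hπi ((hV _).mp hmem)
  obtain ⟨hirr, hdvr⟩ := Fermat.Agent.H73.KLDesc.irreducible_and_dvr V _ hτ hτi key
  -- the constants lie in `V`
  have hK₁V : ∀ a : K₁, algebraMap K₁ E a ∈ V := by
    intro a
    rw [IsScalarTower.algebraMap_apply K₁ F₁ E]
    exact (hV _).mpr (P₁.algebraMap_mem' a)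
  have hKV : ∀ c : K, algebraMap K E c ∈ V := by
    intro c
    letI : Algebra K₁ V := ((algebraMap K₁ E).codRestrict V.toSubring hK₁V).toAlgebra
    haveI : IsScalarTower K₁ V E := IsScalarTower.of_algebraMap_eq (fun a => rfl)
    have hc : IsIntegral V (algebraMap K E c) := (hint c).tower_top
    obtain ⟨a, ha⟩ := IsIntegrallyClosed.isIntegral_iff.mp hc
    rw [← ha]
    exact a.2
  have hVtop : V ≠ ⊤ := by
    intro htop
    exact hτi (htop ▸ ValuationSubring.mem_top _)
  let P : Place K E :=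
    { toValuationSubring := V
      algebraMap_mem' := hKV
      ne_top' := hVtop
      isPrincipalIdealRing' := inferInstance }
  refine ⟨P, rfl, fun f => ?_⟩
  rcases eq_or_ne f 0 with rfl | hf
  · simp
  obtain ⟨u, hu⟩ := P₁.exists_unit_mul_zpow hf hπ
  have hu0 : ((u : P₁.toValuationSubring) : F₁) ≠ 0 := by
    intro h0
    rw [h0, zero_mul] at hu
    exact hf hu
  have huV : algebraMap F₁ E ((u : P₁.toValuationSubring) : F₁) ∈ V :=
    (hV _).mpr (u : P₁.toValuationSubring).2
  have huVi : (algebraMap F₁ E ((u : P₁.toValuationSubring) : F₁))⁻¹ ∈ V := by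
    rw [← map_inv₀]
    refine (hV _).mpr ?_
    have := (u⁻¹ : P₁.toValuationSubringˣ).1.2
    have hcoe : (((u⁻¹ : P₁.toValuationSubringˣ) : P₁.toValuationSubring) : F₁)
        = ((u : P₁.toValuationSubring) : F₁)⁻¹ := by
      have h1 : ((u : P₁.toValuationSubring) : F₁) *
          (((u⁻¹ : P₁.toValuationSubringˣ) : P₁.toValuationSubring) : F₁) = 1 :=
        congrArg Subtype.val u.mul_inv
      exact eq_inv_of_mul_eq_one_right h1
    rw [← hcoe]
    exact this
  have hordu : P.ord (algebraMap F₁ E ((u : P₁.toValuationSubring) : F₁)) = 0 := by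
    have h1 := Fermat.Agent.H29.place_ord_nonneg_of_mem P huV
    have h2 := Fermat.Agent.H29.place_ord_nonneg_of_mem P huVi
    rw [Place.ord_inv] at h2
    omega
  have hordτ : P.ord (algebraMap F₁ E (π : F₁)) = 1 :=
    P.ord_coe_irreducible (π := ⟨_, hτ⟩) hirr
  conv_lhs => rw [hu]
  rw [map_mul, map_zpow₀,
    P.ord_mul ((map_ne_zero (algebraMap F₁ E)).mpr hu0)
      (zpow_ne_zero _ ((map_ne_zero (algebraMap F₁ E)).mpr hπ0)),
    P.ord_zpow, hordu, hordτ]
  ring

variable {K₁ : Type} [Field K₁] [Algebra ℚ K₁] (ι : K₁ →+* QBar)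
  (F₀ : IntermediateField ℚ (LaurentSeries ℚ))

/-- **Converse of (R1).**  A valuation subring `O` of `F` whose trace on `E₁` is the valuation
ring of a place `P₁` of `E₁ / K₁` is a place of `F / ℚ̄` with `ord_O ∘ klBc = ord_{P₁}`. -/
theorem place_of_comap_eq (O : ValuationSubring ↥(laurentBaseChange QBar F₀))
    (P₁ : Place K₁ ↥(laurentBaseChange K₁ F₀))
    (hO : ∀ x : ↥(laurentBaseChange K₁ F₀), klBc ι F₀ x ∈ O ↔ x ∈ P₁.toValuationSubring) :
    ∃ P : Place QBar ↥(laurentBaseChange QBar F₀), P.toValuationSubring = O ∧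
      ∀ g : ↥(laurentBaseChange K₁ F₀), P.ord (klBc ι F₀ g) = P₁.ord g := by
  haveI : CharZero K₁ := charZero_of_injective_algebraMap (algebraMap ℚ K₁).injective
  letI algF : Algebra ↥(laurentBaseChange K₁ F₀) ↥(laurentBaseChange QBar F₀) :=
    (klBc ι F₀).toAlgebra
  letI algK : Algebra K₁ ↥(laurentBaseChange QBar F₀) :=
    ((algebraMap QBar ↥(laurentBaseChange QBar F₀)).comp ι).toAlgebra
  haveI tower : IsScalarTower K₁ ↥(laurentBaseChange K₁ F₀) ↥(laurentBaseChange QBar F₀) :=
    IsScalarTower.of_algebraMap_eq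
      (fun a => (Fermat.Agent.H73.KLDesc.klBc_algebraMap ι F₀ a).symm)
  exact place_of_constExt_val K₁ ↥(laurentBaseChange K₁ F₀) QBar
    ↥(laurentBaseChange QBar F₀) (res_const_isIntegral ι F₀) (res_adjoin_eq_top ι F₀) P₁ O hO

/-- The same with the hypothesis in the form `O ∩ E₁ = O_{P₁}`. -/
theorem place_of_comap_eq' (O : ValuationSubring ↥(laurentBaseChange QBar F₀))
    (P₁ : Place K₁ ↥(laurentBaseChange K₁ F₀))
    (hO : O.comap (klBc ι F₀) = P₁.toValuationSubring) :
    ∃ P : Place QBar ↥(laurentBaseChange QBar F₀), P.toValuationSubring = O ∧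
      ∀ g : ↥(laurentBaseChange K₁ F₀), P.ord (klBc ι F₀ g) = P₁.ord g :=
  place_of_comap_eq ι F₀ O P₁ (fun x => by rw [← hO]; rfl)

/-- The place of `place_of_comap_eq` restricts to `P₁`. -/
theorem resPlace_eq_of_ord (P : Place QBar ↥(laurentBaseChange QBar F₀))
    (P₁ : Place K₁ ↥(laurentBaseChange K₁ F₀))
    (hP : ∀ g : ↥(laurentBaseChange K₁ F₀), P.ord (klBc ι F₀ g) = P₁.ord g) :
    resPlace ι F₀ P = P₁ := by
  apply Fermat.Agent.H23.place_ext_of_ord
  intro f hf
  rw [← hP, ord_klBc_eq ι F₀ P f]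
  exact hf

end Fermat.Agent.H70.ORD
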