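import Fermat.Agent.H70.ORD.RatUnique
import Fermat.Agent.H70.SS.RatPlaceModular
import Fermat.Agent.H82.SS.Contract

/-!
# P-ORD, block B1 (descent rows) : number fields over which given places are rational (helper70)

* `exists_field_fixing_places` : for a finite set `S` of places of `F = laurentBaseChange ℚ̄ F₀`
  there is a number field `K₀` such that `Gal(ℚ̄ / K₀)` fixes every place of `S`.
* **(R3')** `exists_field_rational_places` : … such that over every intermediate field
  `K ⊇ K₀` the restriction `resPlace (algebraMap K ℚ̄) F₀ P` of every `P ∈ S` is `K`-rational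
  (`Fermat.Agent.H82.SS.IsRationalPlace`; convert to helper45's `IsRationalPlace A₀ E V` by
  `Fermat.Agent.H45.ss_isRationalPlace_of`).
* `exists_field_rational_places_modular`, `exists_field_rational_place_modular` : the instances
  for `X₀(N)`.
* `eq_of_resPlace_eq_modular` : over such a `K`, a place `P'` with the same restriction as
  `P ∈ S` is equal to `P`.
-/

set_option autoImplicit false
set_option synthInstance.maxHeartbeats 400000
set_option linter.style.haveILetI false
set_option linter.unusedSectionVars false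

noncomputable section

namespace Fermat.Agent.H70.ORD

open ModularCurve AlgebraicCurve Fermat.Agent.H93.KL Fermat.Agent.H70.SS

section Generic

variable (F₀ : IntermediateField ℚ (LaurentSeries ℚ))

/-- For a finite set of places there is a number field whose absolute Galois group fixes each of
them. -/
theorem exists_field_fixing_places
    (hfin : ∀ f : ↥(laurentBaseChange QBar F₀), f ≠ 0 →
      {P : Place QBar ↥(laurentBaseChange QBar F₀) | P.ord f ≠ 0}.Finite)
    (S : Set (Place QBar ↥(laurentBaseChange QBar F₀))) (hS : S.Finite) :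
    ∃ K₀ : IntermediateField ℚ QBar, FiniteDimensional ℚ ↥K₀ ∧
      ∀ τ : QBar ≃ₐ[ℚ] QBar, (∀ c ∈ K₀, τ c = c) →
        ∀ P ∈ S, arithmeticGalois F₀ τ • P = P := by
  classical
  have key : ∀ P : Place QBar ↥(laurentBaseChange QBar F₀),
      ∃ K₀ : IntermediateField ℚ QBar, FiniteDimensional ℚ ↥K₀ ∧
        ∀ τ : QBar ≃ₐ[ℚ] QBar, (∀ c ∈ K₀, τ c = c) → arithmeticGalois F₀ τ • P = P := by
    intro P
    obtain ⟨π, _, hπ⟩ := Fermat.Agent.H23.exists_irreducible_ord_one P
    have hπ0 : (π : ↥(laurentBaseChange QBar F₀)) ≠ 0 := by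
      intro h0
      rw [h0, Place.ord_zero] at hπ
      omega
    obtain ⟨K₀, hK₀fin, hK₀⟩ := exists_field_fixing_support F₀ _ (hfin _ hπ0)
    exact ⟨K₀, hK₀fin, fun τ hτ => hK₀ τ hτ P (by rw [hπ]; norm_num)⟩
  choose K hKfin hK using key
  haveI := hKfin
  refine ⟨⨆ P ∈ hS.toFinset, K P, IntermediateField.finiteDimensional_iSup_of_finset, ?_⟩
  intro τ hτ P hP
  have hle : K P ≤ ⨆ P ∈ hS.toFinset, K P :=
    le_iSup₂_of_le P (by simpa using hP) le_rfl
  exact hK P τ (fun c hc => hτ c (hle hc))

/-- **(R3')** For a finite set `S` of places (all places of degree one, principal divisors with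
finite support) there is a number field `K₀` such that over every intermediate field `K ⊇ K₀`
the restrictions of the places of `S` are `K`-rational. -/
theorem exists_field_rational_places
    (hdeg : ∀ P : Place QBar ↥(laurentBaseChange QBar F₀), P.deg = 1)
    (hfin : ∀ f : ↥(laurentBaseChange QBar F₀), f ≠ 0 →
      {P : Place QBar ↥(laurentBaseChange QBar F₀) | P.ord f ≠ 0}.Finite)
    (S : Set (Place QBar ↥(laurentBaseChange QBar F₀))) (hS : S.Finite) :
    ∃ K₀ : IntermediateField ℚ QBar, FiniteDimensional ℚ ↥K₀ ∧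
      ∀ K : IntermediateField ℚ QBar, K₀ ≤ K → ∀ P ∈ S,
        Fermat.Agent.H82.SS.IsRationalPlace (resPlace (algebraMap ↥K QBar) F₀ P) := by
  obtain ⟨K₀, hK₀fin, hK₀⟩ := exists_field_fixing_places F₀ hfin S hS
  refine ⟨K₀, hK₀fin, fun K hK P hP z hz => ?_⟩
  exact rational_of_fixed F₀ K P (hdeg P)
    (fun τ hτ => hK₀ τ (fun c hc => hτ c (hK hc)) P hP)
    (resPlace (algebraMap ↥K QBar) F₀ P) (ord_klBc_eq (algebraMap ↥K QBar) F₀ P) z hz

end Generic

section Modular

variable (N : ℕ) [NeZero N]

/-- **(R3') for `X₀(N)`.** -/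
theorem exists_field_rational_places_modular
    (S : Set (Place QBar ↥(modularFunctionFieldBar N))) (hS : S.Finite) :
    ∃ K₀ : IntermediateField ℚ QBar, FiniteDimensional ℚ ↥K₀ ∧
      ∀ K : IntermediateField ℚ QBar, K₀ ≤ K → ∀ P ∈ S,
        Fermat.Agent.H82.SS.IsRationalPlace
          (resPlace (algebraMap ↥K QBar) (modularFunctionFieldFull N) P) :=
  exists_field_rational_places (modularFunctionFieldFull N) (ss_deg_eq_one_bar N)
    (ss_finite_support N) S hS

/-- **(R3') for one place of `X₀(N)`.** -/
theorem exists_field_rational_place_modular (P : Place QBar ↥(modularFunctionFieldBar N)) :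
    ∃ K₀ : IntermediateField ℚ QBar, FiniteDimensional ℚ ↥K₀ ∧
      ∀ K : IntermediateField ℚ QBar, K₀ ≤ K →
        Fermat.Agent.H82.SS.IsRationalPlace
          (resPlace (algebraMap ↥K QBar) (modularFunctionFieldFull N) P) := by
  obtain ⟨K₀, hK₀fin, hK₀⟩ := exists_field_rational_places_modular N {P} (Set.finite_singleton P)
  exact ⟨K₀, hK₀fin, fun K hK => hK₀ K hK P rfl⟩

/-- Over a field of rationality of `P`, a place with the same restriction is equal to `P`. -/
theorem eq_of_resPlace_eq_modular (K : IntermediateField ℚ QBar)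
    (P P' : Place QBar ↥(modularFunctionFieldBar N))
    (hrat : Fermat.Agent.H82.SS.IsRationalPlace
      (resPlace (algebraMap ↥K QBar) (modularFunctionFieldFull N) P))
    (h : P'.toValuationSubring.comap (klBc (algebraMap ↥K QBar) (modularFunctionFieldFull N)) =
      P.toValuationSubring.comap (klBc (algebraMap ↥K QBar) (modularFunctionFieldFull N))) :
    P = P' :=
  eq_of_comap_eq_of_rational (algebraMap ↥K QBar) (modularFunctionFieldFull N) P P' hrat h

end Modular

end Fermat.Agent.H70.ORD
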