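import Fermat.Agent.H70.SS.RatPlace
import Fermat.Agent.H73.KLPlaceDesc

/-!
# P-ORD, block B1 (descent rows) : restriction of places to the number-field models (helper70)

Generic in the level field `F₀ : IntermediateField ℚ (LaurentSeries ℚ)` and in the field
`ι : K₁ →+* ℚ̄`; `E₁ = laurentBaseChange K₁ F₀`, `F = laurentBaseChange ℚ̄ F₀`,
`klBc ι F₀ : E₁ →+* F` the base change.

* `isIntegral_klBc` : every element of `F` is integral over `E₁`.
* `resVal ι F₀ P` : the restriction `O_P ∩ E₁` of a place `P` of `F`, as a valuation subring.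
* `resVal_ne_top`, `resVal_isDVR`.
* `resPlace ι F₀ P : Place K₁ E₁` : the restriction as a place.
* **(R1)** `ord_klBc_eq : P.ord (klBc ι F₀ g) = (resPlace ι F₀ P).ord g` (ramification index one).
* `exists_restrictPlace` : the existential form.
-/

set_option autoImplicit false
set_option linter.style.haveILetI false
set_option linter.unusedSectionVars false

noncomputable section

namespace Fermat.Agent.H70.ORD

open ModularCurve AlgebraicCurve Fermat.Agent.H93.KL

variable {K₁ : Type} [Field K₁] [Algebra ℚ K₁] (ι : K₁ →+* QBar)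
  (F₀ : IntermediateField ℚ (LaurentSeries ℚ))

/-- Constants of `F` are integral over `K₁` (through `ι`). -/
theorem res_const_isIntegral (c : QBar) :
    letI algK : Algebra K₁ ↥(laurentBaseChange QBar F₀) :=
      ((algebraMap QBar ↥(laurentBaseChange QBar F₀)).comp ι).toAlgebra
    IsIntegral K₁ (algebraMap QBar ↥(laurentBaseChange QBar F₀) c) := by
  letI algK : Algebra K₁ ↥(laurentBaseChange QBar F₀) :=
    ((algebraMap QBar ↥(laurentBaseChange QBar F₀)).comp ι).toAlgebra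
  have hc : IsIntegral ℚ c := ((AlgebraicClosure.isAlgebraic ℚ).isAlgebraic c).isIntegral
  obtain ⟨p, hp, hpc⟩ := hc
  refine ⟨p.map (algebraMap ℚ K₁), hp.map _, ?_⟩
  rw [Polynomial.eval₂_map]
  have hcomp : (algebraMap K₁ ↥(laurentBaseChange QBar F₀)).comp (algebraMap ℚ K₁)
      = (algebraMap QBar ↥(laurentBaseChange QBar F₀)).comp (algebraMap ℚ QBar) :=
    Subsingleton.elim _ _
  rw [hcomp, ← Polynomial.hom_eval₂, hpc, map_zero]

/-- `F` is generated over `E₁` by the constants. -/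
theorem res_adjoin_eq_top :
    letI algF : Algebra ↥(laurentBaseChange K₁ F₀) ↥(laurentBaseChange QBar F₀) :=
      (klBc ι F₀).toAlgebra
    IntermediateField.adjoin ↥(laurentBaseChange K₁ F₀)
      (Set.range (algebraMap QBar ↥(laurentBaseChange QBar F₀))) = ⊤ := by
  letI algF : Algebra ↥(laurentBaseChange K₁ F₀) ↥(laurentBaseChange QBar F₀) :=
    (klBc ι F₀).toAlgebra
  rw [eq_top_iff]
  rintro ⟨z, hz⟩ -
  exact Fermat.Agent.H73.KLDesc.mem_of_mem_closure ι F₀
    (IntermediateField.adjoin ↥(laurentBaseChange K₁ F₀)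
      (Set.range (algebraMap QBar ↥(laurentBaseChange QBar F₀)))).toSubfield
    (fun c => IntermediateField.subset_adjoin _ _ ⟨c, rfl⟩)
    (fun f => IntermediateField.algebraMap_mem _ f) z hz

/-- Every element of `F` is integral over `E₁`. -/
theorem isIntegral_klBc (z : ↥(laurentBaseChange QBar F₀)) :
    letI algF : Algebra ↥(laurentBaseChange K₁ F₀) ↥(laurentBaseChange QBar F₀) :=
      (klBc ι F₀).toAlgebra
    IsIntegral ↥(laurentBaseChange K₁ F₀) z := by
  letI algF : Algebra ↥(laurentBaseChange K₁ F₀) ↥(laurentBaseChange QBar F₀) :=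
    (klBc ι F₀).toAlgebra
  letI algK : Algebra K₁ ↥(laurentBaseChange QBar F₀) :=
    ((algebraMap QBar ↥(laurentBaseChange QBar F₀)).comp ι).toAlgebra
  haveI tower : IsScalarTower K₁ ↥(laurentBaseChange K₁ F₀) ↥(laurentBaseChange QBar F₀) :=
    IsScalarTower.of_algebraMap_eq
      (fun a => (Fermat.Agent.H73.KLDesc.klBc_algebraMap ι F₀ a).symm)
  have h := Fermat.Agent.H73.KLDesc.mem_of_mem_closure ι F₀
    (algebraicClosure ↥(laurentBaseChange K₁ F₀) ↥(laurentBaseChange QBar F₀)).toSubfield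
    (fun c => by
      show algebraMap QBar ↥(laurentBaseChange QBar F₀) c ∈
        algebraicClosure ↥(laurentBaseChange K₁ F₀) ↥(laurentBaseChange QBar F₀)
      rw [mem_algebraicClosure_iff']
      exact (res_const_isIntegral ι F₀ c).tower_top)
    (fun f => by
      show klBc ι F₀ f ∈
        algebraicClosure ↥(laurentBaseChange K₁ F₀) ↥(laurentBaseChange QBar F₀)
      rw [mem_algebraicClosure_iff']
      exact isIntegral_algebraMap (R := ↥(laurentBaseChange K₁ F₀))
        (A := ↥(laurentBaseChange QBar F₀)) (x := f))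
    (z : LaurentSeries QBar) z.2
  have h' : z ∈ algebraicClosure ↥(laurentBaseChange K₁ F₀) ↥(laurentBaseChange QBar F₀) := h
  rwa [mem_algebraicClosure_iff'] at h'

/-- The restriction of a place of `F` to `E₁`, as a valuation subring. -/
def resVal (P : Place QBar ↥(laurentBaseChange QBar F₀)) :
    ValuationSubring ↥(laurentBaseChange K₁ F₀) :=
  P.toValuationSubring.comap (klBc ι F₀)

theorem mem_resVal_iff (P : Place QBar ↥(laurentBaseChange QBar F₀))
    (g : ↥(laurentBaseChange K₁ F₀)) :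
    g ∈ resVal ι F₀ P ↔ klBc ι F₀ g ∈ P.toValuationSubring := Iff.rfl

theorem resVal_ne_top (P : Place QBar ↥(laurentBaseChange QBar F₀)) :
    resVal ι F₀ P ≠ ⊤ := by
  intro htop
  apply P.ne_top'
  have hall : ∀ g : ↥(laurentBaseChange K₁ F₀), klBc ι F₀ g ∈ P.toValuationSubring := by
    intro g
    rw [← mem_resVal_iff, htop]
    exact ValuationSubring.mem_top g
  letI algF : Algebra ↥(laurentBaseChange K₁ F₀) ↥(laurentBaseChange QBar F₀) :=
    (klBc ι F₀).toAlgebra
  letI algV : Algebra ↥(laurentBaseChange K₁ F₀) ↥P.toValuationSubring :=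
    ((klBc ι F₀).codRestrict P.toValuationSubring.toSubring hall).toAlgebra
  haveI : IsScalarTower ↥(laurentBaseChange K₁ F₀) ↥P.toValuationSubring
      ↥(laurentBaseChange QBar F₀) := IsScalarTower.of_algebraMap_eq (fun a => rfl)
  refine SetLike.ext fun z => ⟨fun _ => ValuationSubring.mem_top z, fun _ => ?_⟩
  have hz : IsIntegral ↥P.toValuationSubring z := (isIntegral_klBc ι F₀ z).tower_top
  obtain ⟨a, ha⟩ := IsIntegrallyClosed.isIntegral_iff.mp hz
  rw [← ha]
  exact a.2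

/-- Some element of `E₁` has positive order at `P`. -/
theorem exists_pos_ord_klBc (P : Place QBar ↥(laurentBaseChange QBar F₀)) :
    ∃ g : ↥(laurentBaseChange K₁ F₀), 0 < P.ord (klBc ι F₀ g) := by
  by_contra hcon
  push_neg at hcon
  apply resVal_ne_top ι F₀ P
  refine SetLike.ext fun g => ⟨fun _ => ValuationSubring.mem_top g, fun _ => ?_⟩
  rw [mem_resVal_iff]
  by_contra hg
  have h1 : ¬ 0 ≤ P.ord (klBc ι F₀ g) :=
    fun h => hg (Fermat.Agent.H23.mem_of_ord_nonneg P h)
  have h2 := hcon g⁻¹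
  rw [map_inv₀, P.ord_inv] at h2
  omega

/-- An element of `E₁` of minimal positive order at `P`. -/
theorem exists_min_pos_ord_klBc (P : Place QBar ↥(laurentBaseChange QBar F₀)) :
    ∃ (e : ℕ) (π : ↥(laurentBaseChange K₁ F₀)), 0 < e ∧ P.ord (klBc ι F₀ π) = e ∧
      ∀ g : ↥(laurentBaseChange K₁ F₀), 0 < P.ord (klBc ι F₀ g) →
        (e : ℤ) ≤ P.ord (klBc ι F₀ g) := by
  classical
  obtain ⟨g₀, hg₀⟩ := exists_pos_ord_klBc ι F₀ P
  have hex : ∃ n : ℕ, 0 < n ∧ ∃ g : ↥(laurentBaseChange K₁ F₀),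
      P.ord (klBc ι F₀ g) = n :=
    ⟨(P.ord (klBc ι F₀ g₀)).toNat, by omega, g₀, by omega⟩
  refine ⟨Nat.find hex, (Nat.find_spec hex).2.choose, (Nat.find_spec hex).1,
    (Nat.find_spec hex).2.choose_spec, fun g hg => ?_⟩
  have := Nat.find_min' hex (m := (P.ord (klBc ι F₀ g)).toNat) ⟨by omega, g, by omega⟩
  omega

/-- Every nonzero element of `E₁` is a unit of the restriction times a power of an element of
minimal positive order. -/
theorem resVal_unit_mul_zpow (P : Place QBar ↥(laurentBaseChange QBar F₀))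
    (e : ℕ) (π : ↥(laurentBaseChange K₁ F₀)) (he : 0 < e) (hπ : P.ord (klBc ι F₀ π) = e)
    (hmin : ∀ g : ↥(laurentBaseChange K₁ F₀), 0 < P.ord (klBc ι F₀ g) →
      (e : ℤ) ≤ P.ord (klBc ι F₀ g))
    (y : ↥(laurentBaseChange K₁ F₀)) (hy : y ≠ 0) :
    ∃ n : ℤ, y * π ^ n ∈ resVal ι F₀ P ∧ (y * π ^ n)⁻¹ ∈ resVal ι F₀ P := by
  have hπ0 : π ≠ 0 := by
    rintro rfl
    rw [map_zero, P.ord_zero] at hπ
    omega
  have hkπ0 : klBc ι F₀ π ≠ 0 := (map_ne_zero _).mpr hπ0
  have hky0 : klBc ι F₀ y ≠ 0 := (map_ne_zero _).mpr hy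
  have he' : (0 : ℤ) < e := by exact_mod_cast he
  have hord : P.ord (klBc ι F₀ (y * π ^ (-(P.ord (klBc ι F₀ y) / (e : ℤ))))) =
      P.ord (klBc ι F₀ y) % (e : ℤ) := by
    rw [map_mul, map_zpow₀, P.ord_mul hky0 (zpow_ne_zero _ hkπ0), P.ord_zpow, hπ]
    have := Int.emod_add_mul_ediv (P.ord (klBc ι F₀ y)) (e : ℤ)
    linarith
  have hr0 : P.ord (klBc ι F₀ y) % (e : ℤ) = 0 := by
    by_contra hne
    have hpos : 0 < P.ord (klBc ι F₀ y) % (e : ℤ) :=
      lt_of_le_of_ne (Int.emod_nonneg _ he'.ne') (Ne.symm hne)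
    have hlt : P.ord (klBc ι F₀ y) % (e : ℤ) < e := Int.emod_lt_of_pos _ he'
    have := hmin (y * π ^ (-(P.ord (klBc ι F₀ y) / (e : ℤ)))) (by rw [hord]; exact hpos)
    rw [hord] at this
    omega
  rw [hr0] at hord
  refine ⟨-(P.ord (klBc ι F₀ y) / (e : ℤ)), ?_, ?_⟩
  · rw [mem_resVal_iff]
    exact Fermat.Agent.H23.mem_of_ord_nonneg P hord.ge
  · rw [mem_resVal_iff, map_inv₀]
    apply Fermat.Agent.H23.mem_of_ord_nonneg P
    rw [P.ord_inv, hord]
    simp

/-- The restriction of a place is a discrete valuation ring. -/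
theorem resVal_isDVR (P : Place QBar ↥(laurentBaseChange QBar F₀)) :
    IsDiscreteValuationRing ↥(resVal ι F₀ P) := by
  obtain ⟨e, π, he, hπ, hmin⟩ := exists_min_pos_ord_klBc ι F₀ P
  have hπV : π ∈ resVal ι F₀ P := by
    rw [mem_resVal_iff]
    exact Fermat.Agent.H23.mem_of_ord_nonneg P (by rw [hπ]; positivity)
  have hπi : π⁻¹ ∉ resVal ι F₀ P := by
    rw [mem_resVal_iff, map_inv₀]
    intro hmem
    have := Fermat.Agent.H23.ord_nonneg_of_mem P hmem
    rw [P.ord_inv, hπ] at this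
    omega
  exact (Fermat.Agent.H73.KLDesc.irreducible_and_dvr (resVal ι F₀ P) π hπV hπi
    (resVal_unit_mul_zpow ι F₀ P e π he hπ hmin)).2

/-- **The restriction of a place of `F` to `E₁`, as a place of `E₁ / K₁`.** -/
def resPlace (P : Place QBar ↥(laurentBaseChange QBar F₀)) :
    Place K₁ ↥(laurentBaseChange K₁ F₀) where
  toValuationSubring := resVal ι F₀ P
  algebraMap_mem' := fun a => by
    rw [mem_resVal_iff, Fermat.Agent.H73.KLDesc.klBc_algebraMap]
    exact P.algebraMap_mem' _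
  ne_top' := resVal_ne_top ι F₀ P
  isPrincipalIdealRing' := by
    haveI := resVal_isDVR ι F₀ P
    infer_instance

theorem resPlace_toValuationSubring (P : Place QBar ↥(laurentBaseChange QBar F₀)) :
    (resPlace ι F₀ P).toValuationSubring = P.toValuationSubring.comap (klBc ι F₀) := rfl

theorem mem_resPlace_iff (P : Place QBar ↥(laurentBaseChange QBar F₀))
    (g : ↥(laurentBaseChange K₁ F₀)) :
    g ∈ (resPlace ι F₀ P).toValuationSubring ↔ klBc ι F₀ g ∈ P.toValuationSubring := Iff.rfl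

/-- **(R1), ramification index one** : `ord_P (klBc g) = ord_{P₁} g` for the restriction `P₁`
of `P`. -/
theorem ord_klBc_eq (P : Place QBar ↥(laurentBaseChange QBar F₀))
    (g : ↥(laurentBaseChange K₁ F₀)) :
    P.ord (klBc ι F₀ g) = (resPlace ι F₀ P).ord g := by
  haveI : CharZero K₁ := charZero_of_injective_algebraMap (algebraMap ℚ K₁).injective
  letI algF : Algebra ↥(laurentBaseChange K₁ F₀) ↥(laurentBaseChange QBar F₀) :=
    (klBc ι F₀).toAlgebra
  letI algK : Algebra K₁ ↥(laurentBaseChange QBar F₀) :=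
    ((algebraMap QBar ↥(laurentBaseChange QBar F₀)).comp ι).toAlgebra
  haveI tower : IsScalarTower K₁ ↥(laurentBaseChange K₁ F₀) ↥(laurentBaseChange QBar F₀) :=
    IsScalarTower.of_algebraMap_eq
      (fun a => (Fermat.Agent.H73.KLDesc.klBc_algebraMap ι F₀ a).symm)
  set P₁ := resPlace ι F₀ P with hP₁
  obtain ⟨π, hπ⟩ := IsDiscreteValuationRing.exists_irreducible P₁.toValuationSubring
  have hπord : P₁.ord (π : ↥(laurentBaseChange K₁ F₀)) = 1 := P₁.ord_coe_irreducible hπ
  have hπ0 : (π : ↥(laurentBaseChange K₁ F₀)) ≠ 0 := by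
    intro h0
    rw [h0, Place.ord_zero] at hπord
    omega
  have hπi : (π : ↥(laurentBaseChange K₁ F₀))⁻¹ ∉ P₁.toValuationSubring := by
    intro hmem
    have := Fermat.Agent.H29.place_ord_nonneg_of_mem P₁ hmem
    rw [Place.ord_inv, hπord] at this
    omega
  have hunif : ∀ x : ↥(laurentBaseChange K₁ F₀), x ≠ 0 →
      ∃ n : ℤ, x * (π : ↥(laurentBaseChange K₁ F₀)) ^ n ∈ P₁.toValuationSubring ∧
        (x * (π : ↥(laurentBaseChange K₁ F₀)) ^ n)⁻¹ ∈ P₁.toValuationSubring := by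
    intro x hx
    have hord : P₁.ord (x * (π : ↥(laurentBaseChange K₁ F₀)) ^ (-P₁.ord x)) = 0 := by
      rw [P₁.ord_mul hx (zpow_ne_zero _ hπ0), P₁.ord_zpow, hπord]
      ring
    refine ⟨-P₁.ord x, Fermat.Agent.H29.place_mem_of_ord_nonneg P₁ hord.ge,
      Fermat.Agent.H29.place_mem_of_ord_nonneg P₁ ?_⟩
    rw [Place.ord_inv, hord, neg_zero]
  have key := constExtUnramified K₁ ↥(laurentBaseChange K₁ F₀) ↥(laurentBaseChange QBar F₀)
    (Set.range (algebraMap QBar ↥(laurentBaseChange QBar F₀)))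
    (by rintro _ ⟨c, rfl⟩; exact res_const_isIntegral ι F₀ c) (res_adjoin_eq_top ι F₀)
    P₁.toValuationSubring P.toValuationSubring P₁.algebraMap_mem' (fun x => Iff.rfl)
    (π : ↥(laurentBaseChange K₁ F₀)) π.2 hπi hunif
  -- the order of `klBc π` at `P` is one
  have hkπ0 : klBc ι F₀ (π : ↥(laurentBaseChange K₁ F₀)) ≠ 0 := (map_ne_zero _).mpr hπ0
  have hkπpos : 0 < P.ord (klBc ι F₀ (π : ↥(laurentBaseChange K₁ F₀))) := by
    have h1 : 0 ≤ P.ord (klBc ι F₀ (π : ↥(laurentBaseChange K₁ F₀))) :=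
      Fermat.Agent.H23.ord_nonneg_of_mem P π.2
    rcases h1.lt_or_eq with h | h
    · exact h
    · exfalso
      apply hπi
      rw [mem_resPlace_iff, map_inv₀]
      apply Fermat.Agent.H23.mem_of_ord_nonneg P
      rw [P.ord_inv, ← h]
      simp
  have hkπ1 : P.ord (klBc ι F₀ (π : ↥(laurentBaseChange K₁ F₀))) = 1 := by
    obtain ⟨ϖ, _, hϖ⟩ := Fermat.Agent.H23.exists_irreducible_ord_one P
    have hϖ0 : (ϖ : ↥(laurentBaseChange QBar F₀)) ≠ 0 := by
      intro h0
      rw [h0, Place.ord_zero] at hϖ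
      omega
    obtain ⟨n, hn1, hn2⟩ := key (ϖ : ↥(laurentBaseChange QBar F₀)) hϖ0
    have e1 := Fermat.Agent.H23.ord_nonneg_of_mem P hn1
    have e2 := Fermat.Agent.H23.ord_nonneg_of_mem P hn2
    have hz : (algebraMap ↥(laurentBaseChange K₁ F₀) ↥(laurentBaseChange QBar F₀)
        (π : ↥(laurentBaseChange K₁ F₀))) = klBc ι F₀ (π : ↥(laurentBaseChange K₁ F₀)) := rfl
    rw [hz] at e1 e2
    rw [P.ord_inv] at e2
    rw [P.ord_mul hϖ0 (zpow_ne_zero _ hkπ0), P.ord_zpow, hϖ] at e1 e2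
    -- 1 + n * a = 0 with a > 0
    have h0 : 1 + n * P.ord (klBc ι F₀ (π : ↥(laurentBaseChange K₁ F₀))) = 0 := by omega
    have hdvd : P.ord (klBc ι F₀ (π : ↥(laurentBaseChange K₁ F₀))) ∣ 1 :=
      ⟨-n, by linarith⟩
    exact Int.eq_one_of_dvd_one hkπpos.le hdvd
  rcases eq_or_ne g 0 with rfl | hg
  · simp
  obtain ⟨u, hu⟩ := P₁.exists_unit_mul_zpow hg hπ
  have hu0 : ((u : P₁.toValuationSubring) : ↥(laurentBaseChange K₁ F₀)) ≠ 0 := by
    intro h0
    rw [h0, zero_mul] at hu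
    exact hg hu
  have huV : klBc ι F₀ ((u : P₁.toValuationSubring) : ↥(laurentBaseChange K₁ F₀)) ∈
      P.toValuationSubring := (u : P₁.toValuationSubring).2
  have huVi : (klBc ι F₀ ((u : P₁.toValuationSubring) : ↥(laurentBaseChange K₁ F₀)))⁻¹ ∈
      P.toValuationSubring := by
    rw [← map_inv₀]
    have := (u⁻¹ : P₁.toValuationSubringˣ).1.2
    have hcoe : (((u⁻¹ : P₁.toValuationSubringˣ) : P₁.toValuationSubring) :
        ↥(laurentBaseChange K₁ F₀))
        = ((u : P₁.toValuationSubring) : ↥(laurentBaseChange K₁ F₀))⁻¹ := by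
      have h1 : ((u : P₁.toValuationSubring) : ↥(laurentBaseChange K₁ F₀)) *
          (((u⁻¹ : P₁.toValuationSubringˣ) : P₁.toValuationSubring) :
            ↥(laurentBaseChange K₁ F₀)) = 1 :=
        congrArg Subtype.val u.mul_inv
      exact eq_inv_of_mul_eq_one_right h1
    rw [← hcoe]
    exact this
  have hordu : P.ord (klBc ι F₀ ((u : P₁.toValuationSubring) :
      ↥(laurentBaseChange K₁ F₀))) = 0 := by
    have h1 := Fermat.Agent.H23.ord_nonneg_of_mem P huV
    have h2 := Fermat.Agent.H23.ord_nonneg_of_mem P huVi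
    rw [Place.ord_inv] at h2
    omega
  conv_lhs => rw [hu]
  rw [map_mul, map_zpow₀,
    P.ord_mul ((map_ne_zero (klBc ι F₀)).mpr hu0) (zpow_ne_zero _ hkπ0),
    P.ord_zpow, hordu, hkπ1]
  ring

/-- **(R1), existential form.** -/
theorem exists_restrictPlace (P : Place QBar ↥(laurentBaseChange QBar F₀)) :
    ∃ P₁ : Place K₁ ↥(laurentBaseChange K₁ F₀),
      P₁.toValuationSubring = P.toValuationSubring.comap (klBc ι F₀) ∧
      ∀ g : ↥(laurentBaseChange K₁ F₀), P.ord (klBc ι F₀ g) = P₁.ord g :=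
  ⟨resPlace ι F₀ P, rfl, ord_klBc_eq ι F₀ P⟩

end Fermat.Agent.H70.ORD
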